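import Fermat.Agent.BadPrime.GaussTwo
import Fermat.Agent.BadPrime.RankOne
import Fermat.Agent.Reduction.ModularData
import Fermat.Agent.EC.Inertia.Hensel
import Fermat.Agent.EC.Det.CyclotomicChar
import Fermat.Agent.EichlerShimura.BaseChange

/-!
# Inertia and Gauss reductions of modular functions over `ℚ̄`
-/

set_option autoImplicit false
set_option synthInstance.maxHeartbeats 400000

noncomputable section

namespace Fermat.Agent.LevelP.X0

open AlgebraicCurve ModularCurve IsLocalRing Fermat.Agent.Modular Fermat.Agent.BadPrime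
  Fermat.Agent.Reduction

local notation "Qb" => AlgebraicClosure ℚ
local notation "Γℚ" => (AlgebraicClosure ℚ ≃ₐ[ℚ] AlgebraicClosure ℚ)

local instance : Algebra.IsAlgebraic ℚ Qb := AlgebraicClosure.isAlgebraic ℚ

variable (A : ValuationSubring Qb) {p : ℕ} [Fact p.Prime]

/-- Inertia at `A` fixes Gauss reductions. -/
theorem hasGaussRed_coeffMap_inertia {σ : Γℚ} (hσ : σ ∈ A.inertiaSubgroupIn ℚ)
    {f : LaurentSeries Qb} {g : LaurentSeries (ResidueField A)}
    (h : HasGaussRed (residue A) f g) :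
    HasGaussRed (residue A) (coeffMap (σ : Qb →+* Qb) f) g := by
  have h' := h.coeffMap_auto (s := σ.toRingEquiv) (α := RingEquiv.refl _)
    (fun a ha => (EC.residue_apply_eq_of_mem_inertia A hσ ha).1)
    (fun a => (EC.residue_apply_eq_of_mem_inertia A hσ a.2).2)
  have e1 : coeffMap (σ.toRingEquiv : Qb →+* Qb) f = coeffMap (σ : Qb →+* Qb) f :=
    coeffMap_congr (RingHom.ext fun _ => rfl) f
  have e2 : coeffMap ((RingEquiv.refl (ResidueField A)) :
      ResidueField A →+* ResidueField A) g = g :=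
    HahnSeries.ext (funext fun _ => rfl)
  rwa [e1, e2] at h'

/-- The residue degree at a level prime to `p` is full. -/
theorem hasFullResidueDegree_qbar {M : ℕ} [NeZero M] (hpM : ¬ p ∣ M) (hA : A.LiesOverPrime p) :
    HasFullResidueDegree (ResidueField A) Qb M := by
  refine ⟨?_, ?_, ?_⟩
  · exact Fermat.Agent.Curve.finiteDimensional_adjoin (F := modularFunctionFieldFullC (ResidueField A) M)
      (transcendental_jRes M (ResidueField A))
  · exact Modular.finiteDimensional_FL M
      ((IsAlgClosed.lift (R := ℚ) (S := Qb) (M := ℂ)) : Qb →+* ℂ)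
  · exact Reduction.finrank_jRes M hpM A hA

/-- Every residue is the residue of an inertia fixed integer. -/
theorem exists_fixed_residue_eq (hA : A.LiesOverPrime p) (x : ResidueField A) :
    ∃ a : A, (∀ σ ∈ A.inertiaSubgroupIn ℚ, σ (a : Qb) = a) ∧ residue A a = x := by
  have hp : p.Prime := Fact.out
  rcases eq_or_ne x 0 with rfl | hx
  · exact ⟨0, fun σ _ => map_zero σ, map_zero _⟩
  obtain ⟨m, hm, hxm⟩ := EC.exists_pow_q_pow_eq_self A hp hA x
  have h1 : 1 < p ^ m := Nat.one_lt_pow hm.ne' hp.one_lt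
  have hn : ¬ p ∣ p ^ m - 1 := by
    intro h
    have hsub := Nat.dvd_sub (dvd_pow_self p hm.ne') h
    rw [Nat.sub_sub_self h1.le] at hsub
    exact hp.not_dvd_one hsub
  have hxn : x ^ (p ^ m - 1) = 1 := by
    refine mul_right_cancel₀ hx ?_
    rw [← pow_succ, Nat.sub_add_cancel h1.le, hxm, one_mul]
  obtain ⟨a, ha, hax⟩ := EC.Inertia.exists_root_residue_eq A
    (Polynomial.X ^ (p ^ m - 1) - 1 : Polynomial A) (α := x)
    (by
      rw [Polynomial.map_sub, Polynomial.map_pow, Polynomial.map_X, Polynomial.map_one]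
      rw [← Polynomial.C_1]
      exact Polynomial.X_pow_sub_C_ne_zero (by omega) 1)
    (by simp [hxn])
  have ha1 : a ^ (p ^ m - 1) = 1 := by simpa [sub_eq_zero] using ha
  refine ⟨a, fun σ hσ => ?_, hax⟩
  obtain ⟨h, hr⟩ := EC.residue_apply_eq_of_mem_inertia A hσ a.2
  have ha' : (⟨σ a, h⟩ : A) ^ (p ^ m - 1) = 1 := Subtype.ext (by
    show (σ (a : Qb)) ^ (p ^ m - 1) = 1
    rw [← map_pow]
    exact (congrArg σ (congrArg Subtype.val ha1)).trans (map_one σ))
  exact congrArg Subtype.val (EC.eq_of_residue_eq A hp hA hn ha' ha1 hr)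

/-- Every residue at level `M` is the reduction of an inertia fixed function. -/
theorem exists_fixed_hasGaussRed {M : ℕ} [NeZero M] (hA : A.LiesOverPrime p)
    {g : LaurentSeries (ResidueField A)}
    (hg : g ∈ modularFunctionFieldFullC (ResidueField A) M) :
    ∃ f : FL M Qb, (∀ σ ∈ A.inertiaSubgroupIn ℚ,
        coeffMap (σ : Qb →+* Qb) (f : LaurentSeries Qb) = (f : LaurentSeries Qb)) ∧
      HasGaussRed (residue A) (f : LaurentSeries Qb) g := by
  rw [modularFunctionFieldFullC] at hg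
  induction hg using IntermediateField.adjoin_induction with
  | mem x hx =>
    obtain ⟨d, hd, hdM, rfl⟩ := hx
    exact ⟨jdL M Qb hdM, fun σ _ => coeffMap_coeffEmb σ _, hasGaussRed_jdL hdM⟩
  | algebraMap c =>
    obtain ⟨a, ha, rfl⟩ := exists_fixed_residue_eq A hA c
    refine ⟨algebraMap Qb _ (a : Qb), fun σ hσ => ?_, ?_⟩
    · rw [coe_algebraMap_FL, HahnSeries.C_apply, coeffMap_single]
      show HahnSeries.single 0 (σ (a : Qb)) = _
      rw [ha σ hσ]
    · rw [coe_algebraMap_FL, algebraMap_laurentSeries_eq_single, ← HahnSeries.C_apply]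
      exact hasGaussRed_C a
  | add x y _ _ hx hy =>
    obtain ⟨f, hf, hf'⟩ := hx
    obtain ⟨g, hg, hg'⟩ := hy
    exact ⟨f + g, fun σ hσ => by rw [IntermediateField.coe_add, map_add, hf σ hσ, hg σ hσ],
      by simpa using hf'.add hg'⟩
  | inv x _ hx =>
    rcases eq_or_ne x 0 with rfl | hx0
    · exact ⟨0, fun σ _ => by simp, by simpa using hasGaussRed_zero⟩
    obtain ⟨f, hf, hf'⟩ := hx
    exact ⟨f⁻¹, fun σ hσ => by rw [IntermediateField.coe_inv, map_inv₀, hf σ hσ],
      by rw [IntermediateField.coe_inv]; exact hf'.inv hx0⟩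
  | mul x y _ _ hx hy =>
    obtain ⟨f, hf, hf'⟩ := hx
    obtain ⟨g, hg, hg'⟩ := hy
    exact ⟨f * g, fun σ hσ => by rw [IntermediateField.coe_mul, map_mul, hf σ hσ, hg σ hσ],
      by simpa using hf'.mul hg'⟩

/-- A nonzero function fixed by `H` has a multiple by a constant fixed by `H` with nonzero
reduction. -/
theorem exists_scale_hasGaussRed {N : ℕ} {H : Subgroup Γℚ} {f : FL N Qb} (hf : f ≠ 0)
    (hfix : ∀ σ ∈ H, coeffMap (σ : Qb →+* Qb) (f : LaurentSeries Qb) = (f : LaurentSeries Qb)) :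
    ∃ c : Qb, c ≠ 0 ∧ (∀ σ ∈ H, σ c = c) ∧ ∃ g, g ≠ 0 ∧
      HasGaussRed (residue A) (HahnSeries.C c * (f : LaurentSeries Qb)) g := by
  -- descend to a number field fixed by `H`
  obtain ⟨K, hK, z, hz⟩ := finiteCoeff_of_mem_laurentBaseChange _ f.2
  set L : IntermediateField ℚ Qb := K ⊓ IntermediateField.fixedField H
  have hmem : ∀ n, (f : LaurentSeries Qb).coeff n ∈ L := fun n => by
    refine ⟨?_, fun σ => ?_⟩
    · rw [← hz]
      exact (z.coeff n).2
    · exact congrArg (fun x : LaurentSeries Qb => x.coeff n) (hfix σ σ.2)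
  let y : LaurentSeries L :=
    ⟨fun n => ⟨_, hmem n⟩, (f : LaurentSeries Qb).isPWO_support.mono fun n hn h0 =>
      hn (Subtype.ext h0)⟩
  have hy : coeffMap (L.val : L →+* Qb) y = (f : LaurentSeries Qb) :=
    HahnSeries.ext (funext fun n => rfl)
  have hy0 : y ≠ 0 := fun h => hf (Subtype.ext (by rw [← hy, h, map_zero]; rfl))
  have hyF : y ∈ FL N L := EichlerShimura.mem_of_coeffMap_mem (modularFunctionFieldFull N) L.val
    (hy.symm ▸ f.2)
  have : Algebra.IsAlgebraic ℚ L := Algebra.IsAlgebraic.tower_bot ℚ L Qb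
  let A' : ValuationSubring L := A.comap (L.val : L →+* Qb)
  let incl : A' →+* A := ((L.val : L →+* Qb).comp A'.subtype).codRestrict A.toSubring fun x => x.2
  obtain ⟨u, v, ⟨c, hc, a, ha, haπ⟩, ⟨d, hd, b, hb, hbπ⟩, huv⟩ :=
    exists_scalable_quotient A' ((residue A).comp incl) N y hyF hy0
  refine ⟨((c / d : L) : Qb), ?_, fun σ hσ => (c / d : L).2.2 ⟨σ, hσ⟩,
    coeffMap ((residue A).comp incl) a / coeffMap ((residue A).comp incl) b,
    div_ne_zero haπ hbπ, coeffMap incl a, coeffMap incl b, ?_, ?_, ?_⟩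
  · exact (map_ne_zero L.val).2 (div_ne_zero hc hd)
  · rwa [coeffMap_coeffMap]
  · have key : HahnSeries.C (c / d) * y * coeffMap A'.subtype b = coeffMap A'.subtype a := by
      rw [hb, ha, ← huv]
      have e : HahnSeries.C (c / d) * HahnSeries.C d = (HahnSeries.C c : LaurentSeries L) := by
        rw [← map_mul, div_mul_cancel₀ _ hd]
      linear_combination (y * v) * e
    have e' : ∀ w : LaurentSeries A', coeffMap A.subtype (coeffMap incl w) =
        coeffMap (L.val : L →+* Qb) (coeffMap A'.subtype w) := fun w => by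
      rw [coeffMap_coeffMap, coeffMap_coeffMap]; rfl
    rw [e', e', ← key, map_mul, map_mul, hy]
    congr 2
    rw [HahnSeries.C_apply, HahnSeries.C_apply, coeffMap_single]
    rfl
  · rw [coeffMap_coeffMap, coeffMap_coeffMap, div_mul_cancel₀ _ hbπ]

variable {M : ℕ} [NeZero M]

/-- Reductions at level `Mp` lie in the function field of level `M`. -/
theorem hasGaussRed_mem_fullC_mul_prime (hpM : ¬ p ∣ M) (hA : A.LiesOverPrime p)
    {f : FL (M * p) Qb} {g : LaurentSeries (ResidueField A)}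
    (h : HasGaussRed (residue A) (f : LaurentSeries Qb) g) :
    g ∈ modularFunctionFieldFullC (ResidueField A) M := by
  rcases eq_or_ne f 0 with rfl | hf
  · rw [h.unique (by rw [ZeroMemClass.coe_zero]; exact hasGaussRed_zero)]
    exact zero_mem _
  have hp : p.Prime := Fact.out
  have := EC.charP_residueField A hp hA
  let ι : Qb →+* ℂ := (IsAlgClosed.lift (R := ℚ) (S := Qb) (M := ℂ) : Qb →ₐ[ℚ] ℂ)
  obtain ⟨w, hw⟩ := exists_isALInvolution (q := p) (M := M) ι hpM
  set e : FL (M * p) Qb := pairBasis Qb p M none with he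
  have he1 : HasGaussRed (residue A) (e : LaurentSeries Qb) (pairDelta (ResidueField A) p) :=
    hasGaussRed_pairBasis (residue A) none
  have he2 : HasGaussRed (residue A) ((w e : FL (M * p) Qb) : LaurentSeries Qb) 0 :=
    hasGaussRed_w_pairBasis (residue A) hw none
  have he0 : e ≠ 0 := by
    intro h0
    rw [h0, ZeroMemClass.coe_zero] at he1
    exact pairDelta_ne_zero (he1.unique hasGaussRed_zero)
  have hbot : ∀ x : FL (M * p) Qb, ∀ σ ∈ (⊥ : Subgroup Γℚ),
      coeffMap (σ : Qb →+* Qb) (x : LaurentSeries Qb) = (x : LaurentSeries Qb) := by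
    intro x σ hσ
    rw [Subgroup.mem_bot] at hσ
    subst hσ
    exact HahnSeries.ext (funext fun _ => rfl)
  obtain ⟨c, hc, -, gc, -, hgc⟩ :=
    exists_scale_hasGaussRed A ((map_ne_zero w).2 hf) (hbot (w f))
  obtain ⟨d, hd, -, gd, hgd0, hgd⟩ :=
    exists_scale_hasGaussRed A ((map_ne_zero w).2 he0) (hbot (w e))
  have hdA : d ∉ A := fun hmem => hgd0 (by
    rw [hgd.unique ((hasGaussRed_C (π := residue A) ⟨d, hmem⟩).mul he2), mul_zero])
  have hdinv : d⁻¹ ∈ A.nonunits := by
    rw [ValuationSubring.mem_nonunits_iff, map_inv₀]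
    exact inv_lt_one_of_one_lt₀ (not_le.1 (mt (A.valuation_le_one_iff d).1 hdA))
  obtain ⟨n, hn⟩ := exists_pow_mul_inv_mem_nonunits hp hA hdinv hc
  have hx1 : HasGaussRed (residue A) ((e ^ n * f : FL (M * p) Qb) : LaurentSeries Qb)
      (pairDelta (ResidueField A) p ^ n * g) := by
    rw [IntermediateField.coe_mul, IntermediateField.coe_pow]
    exact (he1.pow n).mul h
  have hx2 : ∃ g', HasGaussRed (residue A)
      ((w (e ^ n * f) : FL (M * p) Qb) : LaurentSeries Qb) g' := by
    refine ⟨HahnSeries.C (residue A ⟨d⁻¹ ^ n * c⁻¹, A.nonunits_subset hn⟩) * (gd ^ n * gc), ?_⟩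
    have := (hasGaussRed_C (π := residue A) ⟨d⁻¹ ^ n * c⁻¹, A.nonunits_subset hn⟩).mul
      ((hgd.pow n).mul hgc)
    convert this using 1
    rw [map_mul w, map_pow w, IntermediateField.coe_mul, IntermediateField.coe_pow,
      mul_pow, map_mul (HahnSeries.C : Qb →+* LaurentSeries Qb), map_pow, map_inv₀, map_inv₀]
    have hC : ∀ {r : Qb}, r ≠ 0 → (HahnSeries.C r : LaurentSeries Qb) ≠ 0 := fun hr h0 =>
      hr (HahnSeries.C_injective (h0.trans (map_zero _).symm))
    calc _ = (HahnSeries.C d)⁻¹ ^ n * HahnSeries.C d ^ n * ((HahnSeries.C c)⁻¹ * HahnSeries.C c) *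
          (((w e : FL (M * p) Qb) : LaurentSeries Qb) ^ n *
            ((w f : FL (M * p) Qb) : LaurentSeries Qb)) := by
          rw [← mul_pow, inv_mul_cancel₀ (hC hd), inv_mul_cancel₀ (hC hc), one_pow, one_mul,
            one_mul]
      _ = _ := by ring
  let X : pairBv (residue A) w := ⟨e ^ n * f, (mem_pairBv _ w).2 ⟨⟨_, hx1⟩, hx2⟩⟩
  have hX := (pairRed_mem_fullC (residue A) ι hpM hw residue_surjective
    (hasFullResidueDegree_qbar A hpM hA) X).1
  rw [(hasGaussRed_pairRed1 (residue A) w X).unique hx1] at hX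
  have hΔ : pairDelta (ResidueField A) p ∈ modularFunctionFieldFullC (ResidueField A) M :=
    sub_mem (jqModC_mem_full _ M) (pow_mem (jqModC_mem_full _ M) _)
  rw [← mul_div_cancel_left₀ g (pow_ne_zero n
    (pairDelta_ne_zero (k := ResidueField A) (q := p)))]
  exact div_mem hX (pow_mem hΔ n)

end Fermat.Agent.LevelP.X0
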