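import Fermat.Agent.LevelP.X0.Fields
import Fermat.Agent.EichlerShimura.GaloisHecke
import Fermat.Prelude.Def_ModularCurve_HeckeModule

/-!
# The Atkin–Lehner involution at `p` commutes with `T_ℓ`, `ℓ ∤ Mp`
-/

set_option autoImplicit false
set_option synthInstance.maxHeartbeats 400000

noncomputable section

namespace Fermat.Agent.LevelP.X0

open AlgebraicCurve ModularCurve Fermat.Agent.Modular Fermat.Agent.BadPrime

local notation "Qb" => AlgebraicClosure ℚ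

local instance : Algebra.IsAlgebraic ℚ Qb := AlgebraicClosure.isAlgebraic ℚ

section Gen

variable {N q : ℕ} [NeZero N] [NeZero q]
  (w : modularFunctionFieldBar (N * q) →ₐ[Qb] modularFunctionFieldBar (N * q))
  (hα : ∀ x, w (heckeAlphaBar Qb N q x) = heckeBetaBar Qb N q x)
  (hβ : ∀ x, w (heckeBetaBar Qb N q x) = heckeAlphaBar Qb N q x)

include hα hβ in
/-- The involution exchanges `j(q^d)` and `j(q^{qd})`. -/
theorem al_jdElem {d : ℕ} [NeZero d] [NeZero (q * d)] (hd : d ∣ N) (h₁ : d ∣ N * q)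
    (h₂ : q * d ∣ N * q) :
    w (Reduction.jdElem Qb h₁) = Reduction.jdElem Qb h₂ ∧
      w (Reduction.jdElem Qb h₂) = Reduction.jdElem Qb h₁ := by
  have ha : Reduction.jdElem Qb h₁ = heckeAlphaBar Qb N q (Reduction.jdElem Qb hd) :=
    Subtype.ext rfl
  have hb : Reduction.jdElem Qb h₂ = heckeBetaBar Qb N q (Reduction.jdElem Qb hd) := by
    refine Subtype.ext ?_
    rw [coe_heckeBetaBar, Reduction.coe_jdElem, Reduction.coe_jdElem, coeffEmb, ← coeffMap_qExpand,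
      qExpand_qExpand]
  rw [ha, hb]
  exact ⟨hα _, hβ _⟩

end Gen

theorem jdElem_congr {N : ℕ} {d e : ℕ} [NeZero d] [NeZero e] (hde : d = e) (hd : d ∣ N)
    (he : e ∣ N) : Reduction.jdElem Qb hd = Reduction.jdElem Qb he := by
  subst hde
  rfl

theorem heckeAlphaBar_jdElem {N ℓ d : ℕ} [NeZero N] [NeZero ℓ] [NeZero d] (hd : d ∣ N)
    (h : d ∣ N * ℓ) :
    heckeAlphaBar Qb N ℓ (Reduction.jdElem Qb hd) = Reduction.jdElem Qb h :=
  Subtype.ext rfl

theorem heckeBetaBar_jdElem {N ℓ d : ℕ} [NeZero N] [NeZero ℓ] [NeZero d] [NeZero (ℓ * d)]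
    (hd : d ∣ N) (h : ℓ * d ∣ N * ℓ) :
    heckeBetaBar Qb N ℓ (Reduction.jdElem Qb hd) = Reduction.jdElem Qb h :=
  Subtype.ext (by
    rw [coe_heckeBetaBar, Reduction.coe_jdElem, Reduction.coe_jdElem, coeffEmb, ← coeffMap_qExpand,
      qExpand_qExpand])

variable (p M : ℕ) [Fact p.Prime] [NeZero M]

/-- The involution at level `Mpℓ` above the one at level `Mp`. -/
theorem exists_swap_lift (hpM : ¬ p ∣ M) (ℓ : ℕ) [NeZero ℓ] (hpℓ : ¬ p ∣ ℓ) :
    ∃ w' : modularFunctionFieldBar (M * p * ℓ) ≃ₐ[Qb] modularFunctionFieldBar (M * p * ℓ),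
      (∀ x, w' (heckeAlphaBar Qb (M * p) ℓ x) = heckeAlphaBar Qb (M * p) ℓ (swap p M x)) ∧
      ∀ x, w' (heckeBetaBar Qb (M * p) ℓ x) = heckeBetaBar Qb (M * p) ℓ (swap p M x) := by
  have hp : p.Prime := Fact.out
  have hpMℓ : ¬ p ∣ M * ℓ := fun h => (hp.dvd_mul.1 h).elim hpM hpℓ
  obtain ⟨w, hw1, hw2, hw3⟩ := exists_atkinLehner_involution (L := Qb) p (M * ℓ)
    ((IsAlgClosed.lift (R := ℚ) (S := Qb) (M := ℂ) : Qb →ₐ[ℚ] ℂ) : Qb →+* ℂ) hpMℓ
  obtain ⟨s1, s2, -⟩ := swap_spec p M hpM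
  have heq : modularFunctionFieldBar (M * p * ℓ) = modularFunctionFieldBar (M * ℓ * p) := by
    rw [mul_right_comm]
  let e : modularFunctionFieldBar (M * p * ℓ) ≃ₐ[Qb] modularFunctionFieldBar (M * ℓ * p) :=
    IntermediateField.equivOfEq heq
  let w' : modularFunctionFieldBar (M * p * ℓ) ≃ₐ[Qb] modularFunctionFieldBar (M * p * ℓ) :=
    e.trans ((AlgEquiv.ofAlgHom w w (AlgHom.ext hw3) (AlgHom.ext hw3)).trans e.symm)
  have hgen : ∀ {d : ℕ} [NeZero d] [NeZero (p * d)], d ∣ M * ℓ → ∀ (h₁ : d ∣ M * p * ℓ)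
      (h₂ : p * d ∣ M * p * ℓ), w' (Reduction.jdElem Qb h₁) = Reduction.jdElem Qb h₂ ∧
        w' (Reduction.jdElem Qb h₂) = Reduction.jdElem Qb h₁ := by
    intro d _ _ hd h₁ h₂
    have h₁' : d ∣ M * ℓ * p := hd.trans (dvd_mul_right _ p)
    have h₂' : p * d ∣ M * ℓ * p := (mul_dvd_mul_left p hd).trans (dvd_of_eq (mul_comm _ _))
    obtain ⟨g1, g2⟩ := al_jdElem w hw1 hw2 hd h₁' h₂'
    have e₁ : e (Reduction.jdElem Qb h₁) = Reduction.jdElem Qb h₁' := Subtype.ext rfl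
    have e₂ : e (Reduction.jdElem Qb h₂) = Reduction.jdElem Qb h₂' := Subtype.ext rfl
    constructor
    · show e.symm (w (e (Reduction.jdElem Qb h₁))) = _
      rw [e₁, g1, ← e₂, AlgEquiv.symm_apply_apply]
    · show e.symm (w (e (Reduction.jdElem Qb h₂))) = _
      rw [e₂, g2, ← e₁, AlgEquiv.symm_apply_apply]
  refine ⟨w', fun x => ?_, fun x => ?_⟩
  · refine AlgHom.congr_fun (φ₁ := (w' : modularFunctionFieldBar (M * p * ℓ) →ₐ[Qb] _).comp
      (heckeAlphaBar Qb (M * p) ℓ)) (φ₂ := (heckeAlphaBar Qb (M * p) ℓ).comp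
      (swap p M : modularFunctionFieldBar (M * p) →ₐ[Qb] _))
      (Reduction.algHom_ext_jdElem (L := Qb) fun d _ hd => ?_) x
    show w' (heckeAlphaBar Qb (M * p) ℓ (Reduction.jdElem Qb hd)) =
      heckeAlphaBar Qb (M * p) ℓ (swap p M (Reduction.jdElem Qb hd))
    rcases Reduction.dvd_or_eq_mul_of_dvd hp hd with hdM | ⟨d', hd', rfl⟩
    · have : NeZero (p * d) := ⟨Nat.mul_ne_zero hp.ne_zero (NeZero.ne d)⟩
      have h₂ : p * d ∣ M * p := (mul_dvd_mul_left p hdM).trans (dvd_of_eq (mul_comm _ _))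
      rw [show swap p M (Reduction.jdElem Qb hd) = Reduction.jdElem Qb h₂ from
          (al_jdElem (swap p M : modularFunctionFieldBar (M * p) →ₐ[Qb] _) s1 s2 hdM hd h₂).1,
        heckeAlphaBar_jdElem hd (hd.trans (dvd_mul_right _ _)),
        heckeAlphaBar_jdElem h₂ (h₂.trans (dvd_mul_right _ _))]
      exact (hgen (hdM.trans (dvd_mul_right _ _)) _ _).1
    · have : NeZero d' := ⟨fun h => NeZero.ne (p * d') (by rw [h, mul_zero])⟩
      have h₁ : d' ∣ M * p := hd'.trans (dvd_mul_right _ _)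
      rw [show swap p M (Reduction.jdElem Qb hd) = Reduction.jdElem Qb h₁ from
          (al_jdElem (swap p M : modularFunctionFieldBar (M * p) →ₐ[Qb] _) s1 s2 hd' h₁ hd).2,
        heckeAlphaBar_jdElem hd (hd.trans (dvd_mul_right _ _)),
        heckeAlphaBar_jdElem h₁ (h₁.trans (dvd_mul_right _ _))]
      exact (hgen (hd'.trans (dvd_mul_right _ _)) _ _).2
  · refine AlgHom.congr_fun (φ₁ := (w' : modularFunctionFieldBar (M * p * ℓ) →ₐ[Qb] _).comp
      (heckeBetaBar Qb (M * p) ℓ)) (φ₂ := (heckeBetaBar Qb (M * p) ℓ).comp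
      (swap p M : modularFunctionFieldBar (M * p) →ₐ[Qb] _))
      (Reduction.algHom_ext_jdElem (L := Qb) fun d _ hd => ?_) x
    show w' (heckeBetaBar Qb (M * p) ℓ (Reduction.jdElem Qb hd)) =
      heckeBetaBar Qb (M * p) ℓ (swap p M (Reduction.jdElem Qb hd))
    have hℓd : ∀ {e N : ℕ}, e ∣ N → ℓ * e ∣ N * ℓ := fun he =>
      (mul_dvd_mul_left ℓ he).trans (dvd_of_eq (mul_comm _ _))
    have : NeZero (ℓ * d) := ⟨Nat.mul_ne_zero (NeZero.ne ℓ) (NeZero.ne d)⟩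
    rcases Reduction.dvd_or_eq_mul_of_dvd hp hd with hdM | ⟨d', hd', rfl⟩
    · have : NeZero (p * d) := ⟨Nat.mul_ne_zero hp.ne_zero (NeZero.ne d)⟩
      have : NeZero (p * (ℓ * d)) := ⟨Nat.mul_ne_zero hp.ne_zero (NeZero.ne _)⟩
      have : NeZero (ℓ * (p * d)) := ⟨Nat.mul_ne_zero (NeZero.ne ℓ) (NeZero.ne _)⟩
      have h₂ : p * d ∣ M * p := (mul_dvd_mul_left p hdM).trans (dvd_of_eq (mul_comm _ _))
      have h₂' : p * (ℓ * d) ∣ M * p * ℓ := by rw [mul_left_comm]; exact hℓd h₂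
      rw [show swap p M (Reduction.jdElem Qb hd) = Reduction.jdElem Qb h₂ from
          (al_jdElem (swap p M : modularFunctionFieldBar (M * p) →ₐ[Qb] _) s1 s2 hdM hd h₂).1,
        heckeBetaBar_jdElem hd (hℓd hd), heckeBetaBar_jdElem h₂ (hℓd h₂),
        jdElem_congr (mul_left_comm ℓ p d) (hℓd h₂) h₂']
      exact (hgen (hℓd hdM) _ _).1
    · have : NeZero d' := ⟨fun h => NeZero.ne (p * d') (by rw [h, mul_zero])⟩
      have : NeZero (ℓ * d') := ⟨Nat.mul_ne_zero (NeZero.ne ℓ) (NeZero.ne d')⟩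
      have : NeZero (p * (ℓ * d')) := ⟨Nat.mul_ne_zero hp.ne_zero (NeZero.ne _)⟩
      have h₁ : d' ∣ M * p := hd'.trans (dvd_mul_right _ _)
      have h₂' : p * (ℓ * d') ∣ M * p * ℓ := by rw [mul_left_comm]; exact hℓd hd
      rw [show swap p M (Reduction.jdElem Qb hd) = Reduction.jdElem Qb h₁ from
          (al_jdElem (swap p M : modularFunctionFieldBar (M * p) →ₐ[Qb] _) s1 s2 hd' h₁ hd).2,
        heckeBetaBar_jdElem hd (hℓd hd), heckeBetaBar_jdElem h₁ (hℓd h₁),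
        jdElem_congr (mul_left_comm ℓ p d') (hℓd hd) h₂']
      exact (hgen (hℓd hd') _ _).2

/-- `T_ℓ` commutes with the Atkin–Lehner involution at `p`. -/
theorem heckeOperatorBar_swap_smul (hpM : ¬ p ∣ M) (ℓ : Nat.Primes) (hℓ : (ℓ : ℕ) ≠ p)
    (x : JZero (M * p)) :
    heckeOperatorBar (M * p) ℓ (SemilinearAut.ofAlgAut (swap p M) • x) =
      SemilinearAut.ofAlgAut (swap p M) • heckeOperatorBar (M * p) ℓ x := by
  haveI : NeZero (ℓ : ℕ) := ⟨ℓ.2.ne_zero⟩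
  rw [heckeOperatorBar_apply, heckeOperatorBar_apply]
  by_cases h : HeckeInputsAlong Qb (M * p) (ℓ : ℕ)
  · obtain ⟨hα, hβ, hP, hfin, hFI, hN⟩ := h
    obtain ⟨w', h1, h2⟩ := exists_swap_lift p M hpM (ℓ : ℕ)
      (fun hd => hℓ ((Nat.prime_dvd_prime_iff_eq Fact.out ℓ.2).1 hd).symm)
    rw [heckeOperatorAlong_eq hα hβ hFI hfin hN]
    exact (EichlerShimura.pic0_correspondence_semilinear_smul (g' := SemilinearAut.ofAlgAut w')
      (fun f => by rw [SemilinearAut.ofAlgAut_smul, SemilinearAut.ofAlgAut_smul]; exact h2 f)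
      (fun f => by rw [SemilinearAut.ofAlgAut_smul, SemilinearAut.ofAlgAut_smul]; exact h1 f)
      hβ hα hFI hfin hN x).symm
  · rw [heckeOperatorAlong_of_not h]
    simp

end Fermat.Agent.LevelP.X0
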