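import Fermat.Agent.LevelP.X0.Charts.Assemble
import Fermat.Agent.LevelP.X0.Charts.Instance

/-!
# Two-component data of `X₀(Mp)` at a place over `p`

The closed points are those of the two copies of `X₀(M)` over `k`, glued at the zeros of the residue
of the modular unit; specialisation and the chart axioms come from the integral closures of `A[j]`
and `A[1/j]`.
-/

set_option autoImplicit false
set_option synthInstance.maxHeartbeats 400000

noncomputable section

namespace Fermat.Agent.LevelP.X0

open AlgebraicCurve ModularCurve IsLocalRing Fermat.Agent.Modular Fermat.Agent.BadPrime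
  Fermat.Agent.Curve

local notation "Qb" => AlgebraicClosure ℚ
local notation "Γℚ" => (AlgebraicClosure ℚ ≃ₐ[ℚ] AlgebraicClosure ℚ)

variable (A : ValuationSubring Qb) (p M : ℕ) [Fact p.Prime] [NeZero M]
  [IsAlgClosed (ResidueField A)]

local notation "F" => modularFunctionFieldBar (M * p)
local notation "Fb" => modularFunctionFieldFullC (ResidueField A) M

/-- The two-component data of `X₀(Mp)`. -/
def twoCompData (hN : (p = 2 → 3 ∣ M) ∧ (p = 3 → 2 ∣ M)) (hpM : ¬ p ∣ M) (hA : A.LiesOverPrime p) :
    TwoCompData p A F Fb :=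
  haveI : IsFunctionField1 Qb F := isFunctionField1_mul_prime p M
  haveI : IsFunctionField1 (ResidueField A) Fb := isFunctionField1_fullC_X0 A M
  ChartInputs.toTwoCompData (chartInputs A p M hN hpM hA) hA
    (exists_lift A p M hpM hA)
    (fun i _ hH _ hf hfix => exists_scale A p M hpM i hH hf hfix)
    (fun _ _ D hD hp => descend_principal p M D hD hp)
    (fun _ _ D hdeg hD => descend_class p M D hdeg hD)
    (swap p M) (swap_act p M) (swap_mem_iff A p M) (red_swap A p M hpM hA)

/-- The nodes are the zeros of the residue of `w` at finite `j̄`. -/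
theorem twoCompData_node (hN : (p = 2 → 3 ∣ M) ∧ (p = 3 → 2 ∣ M)) (hpM : ¬ p ∣ M) (hA : A.LiesOverPrime p)
    (y : (twoCompData A p M hN hpM hA).Pt) (hy : (twoCompData A p M hN hpM hA).On y false) :
    ((twoCompData A p M hN hpM hA).IsNode y →
      0 ≤ ((twoCompData A p M hN hpM hA).loc y false).ord (jResM A M)) ∧
    (¬ (twoCompData A p M hN hpM hA).IsNode y →
      0 ≤ ((twoCompData A p M hN hpM hA).loc y false).ord (jResM A M) →
        ((twoCompData A p M hN hpM hA).loc y false).ord
          ((twoCompData A p M hN hpM hA).residueAt false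
            (twoCompData A p M hN hpM hA).w) = 0) := by
  haveI : IsFunctionField1 Qb F := isFunctionField1_mul_prime p M
  haveI : IsFunctionField1 (ResidueField A) Fb := isFunctionField1_fullC_X0 A M
  refine ⟨fun hn => ord_nonneg_of_mem _
    (ChartInputs.ord_red_w_of_ptNode (D := chartInputs A p M hN hpM hA) hA hn).1,
    fun hn hj => ?_⟩
  rw [TwoCompData.residueAt_of_mem _
    ((twoCompData A p M hN hpM hA).V false |>.valuation_le_one_iff _ |>.1
      (twoCompData A p M hN hpM hA).w_false.le)]
  exact ChartInputs.ord_red_w_of_not_ptNode (D := chartInputs A p M hN hpM hA) hA hy hn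
    (mem_of_ord_nonneg _ hj)

/-- **Existence of the two-component data**, for every prime (`3 ∣ M` at `2`, `2 ∣ M` at `3`). -/
theorem exists_twoCompData' (hN : (p = 2 → 3 ∣ M) ∧ (p = 3 → 2 ∣ M)) (hpM : ¬ p ∣ M) (hA : A.LiesOverPrime p) :
    ∃ T : TwoCompData p A F Fb, T.act = act p M ∧ T.swap = swap p M ∧
      (∀ (f : F) (g : Fb), (∃ h : f ∈ T.V false, T.red false ⟨f, h⟩ = g) ↔
        HasGaussRed (residue A) (f : LaurentSeries Qb) (g : LaurentSeries (ResidueField A))) ∧
      (T.w : LaurentSeries Qb) = coeffEmb Qb (modularUnitSeries p) ∧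
      (∀ y, T.On y false →
        (T.IsNode y → 0 ≤ (T.loc y false).ord (jResM A M)) ∧
        (¬ T.IsNode y → 0 ≤ (T.loc y false).ord (jResM A M) →
          (T.loc y false).ord (T.residueAt false T.w) = 0)) ∧
      (T.w : LaurentSeries Qb) = (wSeries p Qb : LaurentSeries Qb) := by
  refine ⟨twoCompData A p M hN hpM hA, rfl, rfl, fun f g => ⟨?_, fun h => ?_⟩, rfl,
    twoCompData_node A p M hN hpM hA, coe_unitW p M⟩
  · rintro ⟨h, rfl⟩
    exact hasGaussRed_red A p M hpM hA false ⟨f, h⟩
  · exact hasRed_of_hasGaussRed A p M hpM hA (i := false) h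

/-- **Existence of the two-component data**, `p ≥ 5`. -/
theorem exists_twoCompData (hp5 : 5 ≤ p) (hpM : ¬ p ∣ M) (hA : A.LiesOverPrime p) :
    ∃ T : TwoCompData p A F Fb, T.act = act p M ∧ T.swap = swap p M ∧
      (∀ (f : F) (g : Fb), (∃ h : f ∈ T.V false, T.red false ⟨f, h⟩ = g) ↔
        HasGaussRed (residue A) (f : LaurentSeries Qb) (g : LaurentSeries (ResidueField A))) ∧
      (T.w : LaurentSeries Qb) = coeffEmb Qb (modularUnitSeries p) ∧
      (∀ y, T.On y false →
        (T.IsNode y → 0 ≤ (T.loc y false).ord (jResM A M)) ∧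
        (¬ T.IsNode y → 0 ≤ (T.loc y false).ord (jResM A M) →
          (T.loc y false).ord (T.residueAt false T.w) = 0)) ∧
      (T.w : LaurentSeries Qb) = (wSeries p Qb : LaurentSeries Qb) :=
  exists_twoCompData' A p M ⟨fun h => absurd h (by omega), fun h => absurd h (by omega)⟩ hpM hA

end Fermat.Agent.LevelP.X0
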