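import Fermat.Agent.LevelP.X0.Unit
import Fermat.Agent.Reduction.SmallIdentities
import Fermat.Agent.Reduction.DifferentSmall
import Fermat.Agent.LevelP.X0.Charts.Gens
import Fermat.Agent.LevelP.Model.Slope
import Mathlib.NumberTheory.Bernoulli
import Mathlib.NumberTheory.Padics.PadicNorm

/-!
# At even level the nodes have thickness prime to `3`

For a prime `p ≥ 5` the Eisenstein series of weight `p - 1` is `1` modulo `p`, so the residue of
`Δ(τ)/Δ(pτ)` times a power of `j̄` is a cube.  At even level the zeros of `j̄` have multiplicity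
divisible by `3` (`j E² = (E + 256)³` with `E = Δ(τ)/Δ(2τ)`), hence so have those of the residue.
-/

set_option autoImplicit false
set_option synthInstance.maxHeartbeats 400000
set_option maxHeartbeats 1000000

noncomputable section

open scoped MatrixGroups
open UpperHalfPlane Polynomial ModularCurve

namespace Fermat.Agent.LevelP.X0

open Fermat.Agent.Modular Fermat.Agent.Igusa
open Fermat.Agent.Reduction.SmallId (ofPS e4cube)

section Bernoulli

/-- The rational coefficient of `E_{q-1}` is divisible by `q`. -/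
theorem padicNorm_bernoulliCoeff_lt_one {q : ℕ} [Fact q.Prime] (hq : 5 ≤ q) :
    padicNorm q (-(2 * ((q - 1 : ℕ) : ℚ)) / _root_.bernoulli (q - 1)) < 1 := by
  classical
  have hp : q.Prime := Fact.out
  obtain ⟨t, ht⟩ : ∃ t, q - 1 = 2 * t := by
    obtain ⟨u, hu⟩ := hp.odd_of_ne_two (by omega)
    exact ⟨u, by omega⟩
  obtain ⟨z, hz⟩ := Bernoulli.vonStaudt_clausen t
  rw [← ht] at hz
  set s := (Finset.range (q - 1 + 2)).filter (fun l => l.Prime ∧ (l - 1) ∣ (q - 1)) with hs
  have hqs : q ∈ s := Finset.mem_filter.2 ⟨Finset.mem_range.2 (by omega), hp, dvd_rfl⟩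
  rw [← Finset.add_sum_erase s _ hqs] at hz
  have hR : padicNorm q (∑ l ∈ s.erase q, (1 : ℚ) / l) ≤ 1 := by
    refine padicNorm.sum_le' (fun l hl => ?_) zero_le_one
    obtain ⟨hne, hl'⟩ := Finset.mem_erase.1 hl
    have hlp := (Finset.mem_filter.1 hl').2.1
    rw [padicNorm.div, padicNorm.one, one_div, (padicNorm.nat_eq_one_iff (p := q) l).2 fun hd =>
      hne ((Nat.prime_dvd_prime_iff_eq hp hlp).1 hd).symm, inv_one]
  set R := ∑ l ∈ s.erase q, (1 : ℚ) / l
  have hB : _root_.bernoulli (q - 1) = ((z : ℚ) - R) + -(1 / (q : ℚ)) := by rw [hz]; ring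
  have h1 : padicNorm q ((z : ℚ) - R) ≤ 1 :=
    (padicNorm.sub (p := q)).trans (max_le (padicNorm.of_int z) hR)
  have h2 : padicNorm q (-(1 / (q : ℚ))) = q := by
    rw [padicNorm.neg, padicNorm.div, padicNorm.one, padicNorm_p_of_prime_self, one_div, inv_inv]
  have hq1 : (1 : ℚ) < q := by exact_mod_cast hp.one_lt
  have hnB : padicNorm q (_root_.bernoulli (q - 1)) = q := by
    rw [hB, padicNorm.add_eq_max_of_ne (by rw [h2]; exact (h1.trans_lt hq1).ne), h2]
    exact max_eq_right (h1.trans hq1.le)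
  rw [padicNorm.div, hnB, padicNorm.neg,
    show (2 * ((q - 1 : ℕ) : ℚ)) = (((2 * (q - 1) : ℕ) : ℤ) : ℚ) by push_cast; ring]
  calc padicNorm q (((2 * (q - 1) : ℕ) : ℤ) : ℚ) / q ≤ 1 / (q : ℚ) := by
        gcongr; exact padicNorm.of_int _
    _ < 1 := by rw [div_lt_one (by linarith)]; exact hq1
  where
  padicNorm_p_of_prime_self : padicNorm q (q : ℚ) = (q : ℚ)⁻¹ := padicNorm.padicNorm_p_of_prime

end Bernoulli

section Cube

variable (q : ℕ) [Fact q.Prime]

/-- The Eisenstein series of weight `q - 1` over a ring containing its coefficient. -/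
def eisPS (R : Type*) [CommRing R] (b : R) (k : ℕ) : PowerSeries R :=
  PowerSeries.mk fun n => if n = 0 then 1 else b * ((ArithmeticFunction.sigma (k - 1) n : ℕ) : R)

theorem hasQExp_eisenstein {k : ℕ} (hk : 3 ≤ k) (hk2 : Even k) (S : Subring ℂ) (b : S)
    (hb : (b : ℂ) = -(2 * (k : ℂ) / (_root_.bernoulli k : ℂ))) :
    HasQExp 1 (ModularForm.E hk)
      (coeffMap S.subtype (HahnSeries.ofPowerSeries ℤ S (eisPS S b k))) := by
  rw [coeffMap_ofPowerSeries]
  refine HasQExp.ofPowerSeries fun τ => ?_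
  have : HasSum _ _ := ModularForm.hasSum_qExpansion (ModularForm.E hk) one_pos one_mem_strictPeriods_SL τ
  convert this using 3 with n
  rw [EisensteinSeries.E_qExpansion_coeff hk hk2, PowerSeries.coeff_map, eisPS,
    PowerSeries.coeff_mk]
  split_ifs
  · simp
  · simp [hb]

theorem e4cube_eq (R : Type*) [CommRing R] :
    HahnSeries.ofPowerSeries ℤ R (eisenstein4.map (Int.castRingHom R)) ^ 3 =
      jqModC R * Igusa.deltaSeries R := by
  rw [jqModC, Igusa.deltaSeries, jNum, map_mul, map_mul, map_pow, map_pow, mul_mul_mul_comm,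
    HahnSeries.single_mul_single, neg_add_cancel, one_mul, HahnSeries.single_zero_one, one_mul,
    mul_assoc, ← map_mul (HahnSeries.ofPowerSeries ℤ R), ← map_mul (PowerSeries.map (Int.castRingHom R)),
    mul_comm dedekindEtaUnitInv, dedekindEtaUnit_mul_inv, map_one, map_one, mul_one]

/-- The residue of `Δ(τ)/Δ(qτ)` times a power of `j` is a cube in `k[j]`. -/
theorem exists_cube (hq : 5 ≤ q) {k : Type} [Field k] [CharP k q] (S : Subring ℂ) (φ : S →+* k)
    (b : S) (hb : (b : ℂ) = -(2 * ((q - 1 : ℕ) : ℂ) / (_root_.bernoulli (q - 1) : ℂ))) (hb0 : φ b = 0) :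
    ∃ (a : ℕ) (P : k[X]), P.eval₂ HahnSeries.C (jqModC k) ^ 3 =
      (wSeries q k : LaurentSeries k) * jqModC k ^ a := by
  have hp : q.Prime := Fact.out
  have hk : 3 ≤ q - 1 := by omega
  have hk2 : Even (q - 1) := Nat.Prime.even_sub_one hp (by omega)
  set m := (q + 1) / 3 with hm
  set a := 3 * m - (q - 1) with ha
  have hma : 4 * (q - 1) + 4 * a = 12 * m := by omega
  refine ⟨a, ?_⟩
  let eS : LaurentSeries S := HahnSeries.ofPowerSeries ℤ S (eisPS S b (q - 1))
  let e4S : LaurentSeries S := HahnSeries.ofPowerSeries ℤ S (eisenstein4.map (Int.castRingHom S))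
  let x : LaurentSeries S := eS ^ 4 * e4S ^ a * ↑((deltaUnitOne S)⁻¹ ^ m)
  let f : ℍ → ℂ := fun τ =>
    ModularForm.E hk τ ^ 4 * ModularForm.E₄ τ ^ a / ModularForm.discriminant τ ^ m
  have hfinv : IsSLInvariant f := by
    intro γ τ
    have hg : (Matrix.SpecialLinearGroup.mapGL ℝ γ) ∈ (𝒮ℒ : Subgroup (GL (Fin 2) ℝ)) := ⟨γ, rfl⟩
    have h1 := SlashInvariantForm.slash_action_eqn'' (ModularForm.E hk) hg τ
    have h4 := SlashInvariantForm.slash_action_eqn'' ModularForm.E₄ hg τ
    have hd := UpperHalfPlane.denom_ne_zero (Matrix.SpecialLinearGroup.mapGL ℝ γ) τ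
    change ModularForm.E hk (Matrix.SpecialLinearGroup.mapGL ℝ γ • τ) ^ 4 *
      ModularForm.E₄ (Matrix.SpecialLinearGroup.mapGL ℝ γ • τ) ^ a /
        ModularForm.discriminant (γ • τ) ^ m = _
    rw [h1, h4, Igusa.discriminant_smul, mul_pow, mul_pow, mul_pow, mul_mul_mul_comm,
      ← zpow_natCast (_ ^ ((q - 1 : ℕ) : ℤ)), ← zpow_mul, ← zpow_natCast (_ ^ (4 : ℤ)), ← zpow_mul,
      ← zpow_add₀ hd, ← pow_mul, ← zpow_natCast _ (12 * m),
      show ((q - 1 : ℕ) : ℤ) * ((4 : ℕ) : ℤ) + 4 * (a : ℤ) = ((12 * m : ℕ) : ℤ) by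
        rw [← hma]; push_cast; ring]
    exact mul_div_mul_left _ _ (zpow_ne_zero _ hd)
  have hδ : coeffMap S.subtype ((deltaUnitOne S : (LaurentSeries S)ˣ) : LaurentSeries S) =
      Igusa.deltaSeries ℂ := by
    rw [coe_deltaUnitOne, coeffMap_deltaSeries]
  have hfexp : HasQExp ((1 : ℕ) : ℝ) f (coeffMap S.subtype x) := by
    rw [Nat.cast_one]
    have he := hasQExp_eisenstein hk hk2 S b hb
    have h4 : HasQExp 1 ModularForm.E₄ (coeffMap S.subtype e4S) := by
      have := hasQExp_eisenstein4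
      rw [Modular.intSeriesC_apply] at this
      rwa [coeffMap_ofPowerSeries, ← RingHom.comp_apply (PowerSeries.map S.subtype), ← PowerSeries.map_comp,
        RingHom.eq_intCast' (S.subtype.comp (Int.castRingHom S))]
    have h := ((he.pow 4).mul (h4.pow a)).div ((Igusa.hasQExp_deltaSeries).pow m) one_pos
      fun τ => pow_ne_zero m (ModularForm.discriminant_ne_zero τ)
    have hx : coeffMap S.subtype x = coeffMap S.subtype eS ^ 4 * coeffMap S.subtype e4S ^ a /
        Igusa.deltaSeries ℂ ^ m := by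
      simp only [x, map_mul, map_pow, Units.val_pow_eq_pow_val]
      rw [← hδ, div_eq_mul_inv, ← inv_pow]
      congr 2
      refine eq_inv_of_mul_eq_one_left ?_
      rw [← map_mul, Units.inv_mul, map_one]
    rw [hx]
    exact h.congr fun τ => rfl
  have hlead : HasLead x (-(m : ℤ)) 1 := by
    have h1 : HasLead eS 0 1 := Reduction.SmallId.hasLead_congr (hasLead_ofPowerSeries _) rfl (by
      rw [← PowerSeries.coeff_zero_eq_constantCoeff, eisPS, PowerSeries.coeff_mk, if_pos rfl])
    have h4 : HasLead e4S 0 1 := Reduction.SmallId.hasLead_congr (hasLead_ofPowerSeries _) rfl (by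
      rw [← PowerSeries.coeff_zero_eq_constantCoeff, PowerSeries.coeff_map, eisenstein4,
        PowerSeries.coeff_mk, if_pos rfl, map_one])
    have h5 : HasLead ((↑(deltaUnitOne S)⁻¹ : LaurentSeries S)) (-1) 1 := by
      have h : HasLead ((deltaUnitOne S : (LaurentSeries S)ˣ) : LaurentSeries S) 1
          ((1 : Sˣ) : S) := by simpa using hasLead_deltaSeries (R := S)
      simpa using h.inv_unit
    simp only [x, Units.val_pow_eq_pow_val]
    exact ((h1.pow 4).mul (h4.pow a)).mul' (h5.pow m) (by simp) (by simp)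
  obtain ⟨Q, -, -, -, hQ⟩ := exists_poly_of_isSLInvariant (J := kleinJ) (fun γ τ => kleinJ_smul γ τ)
    hasQExp_kleinJ S 1 m f x hfinv hfexp (fun i hi => hlead.below i (by simpa using hi))
  refine ⟨Q.map φ, ?_⟩
  have hval : (Q.map φ).eval₂ HahnSeries.C (jqModC k) = coeffMap φ x := by
    rw [← hQ, coeffMap_evalJ, evalJ, coe_eval₂RingHom, qExpand_one_apply]
  have heS : coeffMap φ eS = 1 := by
    rw [coeffMap_ofPowerSeries, ← map_one (HahnSeries.ofPowerSeries ℤ k)]
    congr 1
    ext n
    rw [PowerSeries.coeff_map, eisPS, PowerSeries.coeff_mk, PowerSeries.coeff_one]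
    split_ifs
    · exact map_one φ
    · rw [map_mul, hb0, zero_mul]
  have he4 : coeffMap φ e4S ^ 3 = jqModC k * Igusa.deltaSeries k := by
    rw [coeffMap_ofPowerSeries, ← RingHom.comp_apply (PowerSeries.map φ), ← PowerSeries.map_comp,
      RingHom.eq_intCast' (φ.comp (Int.castRingHom S))]
    exact e4cube_eq k
  have hd0 : Igusa.deltaSeries k ≠ 0 := hasLead_deltaSeries.ne_zero one_ne_zero
  have hinv : coeffMap φ ((↑(deltaUnitOne S)⁻¹ : LaurentSeries S)) = (Igusa.deltaSeries k)⁻¹ := by
    refine eq_inv_of_mul_eq_one_left ?_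
    rw [← coeffMap_deltaSeries φ, ← coe_deltaUnitOne, ← map_mul, Units.inv_mul, map_one]
  have hw : (wSeries q k : LaurentSeries k) * Igusa.deltaSeries k ^ q = Igusa.deltaSeries k := by
    let _ : Algebra (ZMod q) k := ZMod.algebra k q
    have hpow : qExpand k q (Igusa.deltaSeries k) = Igusa.deltaSeries k ^ q := by
      rw [← coeffMap_deltaSeries (algebraMap (ZMod q) k)
        (R := ZMod q), qExpand_eq_pow_of_prime]
    rw [← hpow]
    exact wSeries_mul q k
  have hx : coeffMap φ x = coeffMap φ e4S ^ a * ((Igusa.deltaSeries k)⁻¹) ^ m := by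
    simp only [x, map_mul, map_pow, Units.val_pow_eq_pow_val, heS, one_pow, one_mul, hinv]
  rw [hval, hx, mul_pow, ← pow_mul, mul_comm a 3, pow_mul, he4, mul_pow, ← pow_mul, inv_pow]
  have hm3 : m * 3 = a + (q - 1) := by omega
  rw [hm3, pow_add]
  have h1 : Igusa.deltaSeries k ^ (q - 1) * (wSeries q k : LaurentSeries k) = 1 := by
    refine mul_right_cancel₀ hd0 ?_
    rw [one_mul]
    conv_rhs => rw [← hw]
    rw [show Igusa.deltaSeries k ^ q = Igusa.deltaSeries k ^ (q - 1) * Igusa.deltaSeries k by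
      rw [← pow_succ, Nat.sub_add_cancel hp.one_le]]
    ring
  field_simp
  linear_combination (-(jqModC k ^ a)) * h1

end Cube

section Nodes

open AlgebraicCurve IsLocalRing Fermat.Agent.Curve Fermat.Agent.BadPrime

local notation "Qb" => AlgebraicClosure ℚ

variable (A : ValuationSubring Qb) (q M : ℕ) [Fact q.Prime] [NeZero M]
  [IsAlgClosed (ResidueField A)]

local notation "F" => modularFunctionFieldBar (M * q)
local notation "Fb" => modularFunctionFieldFullC (ResidueField A) M

omit [IsAlgClosed (ResidueField A)] in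
/-- The coefficient of `E_{q-1}` in the valuation ring, with residue `0`. -/
theorem exists_eis_coeff (hq : 5 ≤ q) (hA : A.LiesOverPrime q) :
    ∃ (S : Subring ℂ) (φ : S →+* ResidueField A) (b : S),
      (b : ℂ) = -(2 * ((q - 1 : ℕ) : ℂ) / (_root_.bernoulli (q - 1) : ℂ)) ∧ φ b = 0 := by
  have hp : q.Prime := Fact.out
  have hchar := EC.charP_residueField A hp hA
  set β : ℚ := -(2 * ((q - 1 : ℕ) : ℚ)) / _root_.bernoulli (q - 1) with hβ
  have hn : padicNorm q β < 1 := padicNorm_bernoulliCoeff_lt_one hq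
  have hden : ¬ q ∣ β.den := fun hd => by
    have hnum : ¬ (q : ℤ) ∣ β.num := fun hn' =>
      hp.not_dvd_one (β.reduced ▸ Nat.dvd_gcd (Int.natCast_dvd.1 hn') hd)
    have h1 : padicNorm q (β.num : ℚ) = 1 := (padicNorm.int_eq_one_iff (p := q) _).2 hnum
    have h2 : padicNorm q (β.den : ℚ) < 1 := (padicNorm.nat_lt_one_iff (p := q) _).2 hd
    have h3 : padicNorm q β * padicNorm q (β.den : ℚ) = 1 := by
      rw [← padicNorm.mul, Rat.mul_den_eq_num, h1]
    have h4 : (0 : ℚ) ≤ padicNorm q (β.den : ℚ) := padicNorm.nonneg _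
    nlinarith [padicNorm.nonneg (p := q) β]
  have hnum : (q : ℤ) ∣ β.num := by
    refine (padicNorm.int_lt_one_iff (p := q) _).1 ?_
    have h1 : padicNorm q (β.den : ℚ) = 1 := (padicNorm.nat_eq_one_iff (p := q) _).2 hden
    rwa [← Rat.mul_den_eq_num, padicNorm.mul, h1, mul_one]
  let ι : Qb →+* ℂ := Reduction.qbarEmb
  let e : A.toSubring ≃+* A.toSubring.map ι := A.toSubring.equivMapOfInjective ι ι.injective
  have hd0 : residue A ((β.den : ℕ) : A) ≠ 0 := by
    rw [map_natCast]
    exact fun h => hden ((CharP.cast_eq_zero_iff (ResidueField A) q _).1 h)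
  obtain ⟨u, hu⟩ := IsLocalRing.residue_ne_zero_iff_isUnit _ |>.1 hd0
  let bA : A := (β.num : A) * ((u⁻¹ : Aˣ) : A)
  refine ⟨A.toSubring.map ι, (residue A).comp e.symm.toRingHom, e bA, ?_, ?_⟩
  · have h1 : ((bA : A) : Qb) = (β : Qb) := by
      have h2 : ((u⁻¹ : Aˣ) : A) * ((β.den : ℕ) : A) = 1 := by rw [← hu]; exact u.inv_mul
      have h3 := congrArg (fun z : A => (z : Qb)) h2
      simp only [MulMemClass.coe_mul, OneMemClass.coe_one] at h3
      push_cast at h3
      rw [Rat.cast_def, eq_div_iff (Nat.cast_ne_zero.2 β.den_ne_zero)]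
      show ((β.num : A) : Qb) * ((u⁻¹ : Aˣ) : A) * _ = _
      push_cast
      rw [mul_assoc, h3, mul_one]
    show ι ((bA : A) : Qb) = _
    rw [h1, map_ratCast, hβ]
    push_cast
    ring
  · show residue A (e.symm (e bA)) = 0
    rw [e.symm_apply_apply]
    show residue A ((β.num : A) * _) = 0
    rw [map_mul, map_intCast, (CharP.intCast_eq_zero_iff (ResidueField A) q _).2 hnum, zero_mul]

omit [NeZero M] in
/-- At even level the zeros of `j̄` have multiplicity divisible by `3`. -/
theorem three_dvd_ord_jResM (h2 : 2 ∣ M) (hk2 : (2 : ResidueField A) ≠ 0)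
    (Q : Place (ResidueField A) Fb) (hQ : 0 ≤ Q.ord (jResM A M)) :
    (3 : ℤ) ∣ Q.ord (jResM A M) := by
  set k := ResidueField A
  set d := Igusa.deltaSeries k
  set d2 := qExpand k 2 (Igusa.deltaSeries k)
  have hd : d ≠ 0 := hasLead_deltaSeries.ne_zero one_ne_zero
  have hd2 : d2 ≠ 0 := (hasLead_deltaSeries.qExpand 2).ne_zero one_ne_zero
  let E : Fb := ⟨d / d2, Reduction.div_qExpand_deltaSeries_mem M k 2 h2 (by exact_mod_cast hk2)⟩
  have hE0 : E ≠ 0 := fun h => div_ne_zero hd hd2 (congrArg Subtype.val h)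
  have hrel : jResM A M * E ^ 2 = (E + algebraMap k Fb 256) ^ 3 := by
    apply Subtype.ext
    simp only [IntermediateField.coe_mul, IntermediateField.coe_pow, IntermediateField.coe_add]
    show jqModC k * (d / d2) ^ 2 = (d / d2 + algebraMap k (LaurentSeries k) 256) ^ 3
    rw [← Reduction.C_eq_algebraMap]
    field_simp
    have h := Reduction.SmallId.identity_two k
    linear_combination h
  have hj0 : jResM A M ≠ 0 := fun h =>
    hasLead_jqModC.ne_zero one_ne_zero (congrArg Subtype.val h)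
  have h256 : algebraMap k Fb 256 ≠ 0 := (_root_.map_ne_zero _).2 (by
    rw [show (256 : k) = 2 ^ 8 by norm_num]; exact pow_ne_zero _ hk2)
  have hs0 : E + algebraMap k Fb 256 ≠ 0 := fun h => by
    rw [h, zero_pow three_ne_zero] at hrel
    exact mul_ne_zero hj0 (pow_ne_zero 2 hE0) hrel
  have key := congrArg Q.ord hrel
  rw [Q.ord_mul hj0 (pow_ne_zero 2 hE0), Curve.ord_pow, Curve.ord_pow] at key
  push_cast at key
  have hc : Q.ord (algebraMap k Fb 256) = 0 := ord_algebraMap Q _
  rcases lt_trichotomy (Q.ord E) 0 with hlt | heq | hgt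
  · have : Q.ord (E + algebraMap k Fb 256) = Q.ord E :=
      ord_add_eq_of_lt Q hE0 (by rw [hc]; exact hlt)
    omega
  · exact ⟨Q.ord (E + algebraMap k Fb 256), by omega⟩
  · have : Q.ord (E + algebraMap k Fb 256) = 0 := by
      rw [add_comm, ord_add_eq_of_lt Q h256 (by rw [hc]; exact hgt), hc]
    omega

/-- At even level the residue of `Δ(τ)/Δ(qτ)` has orders divisible by `3` at finite `j̄`. -/
theorem three_dvd_ord_wSeries (hq : 5 ≤ q) (hA : A.LiesOverPrime q) (h2 : 2 ∣ M) (g : Fb)
    (hg : (g : LaurentSeries (ResidueField A)) =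
      (wSeries q (ResidueField A) : LaurentSeries (ResidueField A)))
    (Q : Place (ResidueField A) Fb) (hQ : 0 ≤ Q.ord (jResM A M)) :
    (3 : ℤ) ∣ Q.ord g := by
  have hp : q.Prime := Fact.out
  have hchar := EC.charP_residueField A hp hA
  obtain ⟨S, φ, b, hb, hb0⟩ := exists_eis_coeff A q hq hA
  obtain ⟨a, P, hP⟩ := exists_cube q hq S φ b hb hb0
  have he : (Polynomial.aeval (jResM A M) P) ^ 3 = g * jResM A M ^ a := by
    apply Subtype.ext
    simp only [IntermediateField.coe_mul, IntermediateField.coe_pow, hg]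
    rw [show ((Polynomial.aeval (jResM A M) P : Fb) : LaurentSeries (ResidueField A)) =
      P.eval₂ HahnSeries.C (jqModC (ResidueField A)) by
        show (modularFunctionFieldFullC (ResidueField A) M).val _ = _
        rw [← Polynomial.aeval_algHom_apply, Polynomial.aeval_def]
        exact Polynomial.eval₂_congr
          (RingHom.ext fun x => (Reduction.C_eq_algebraMap x).symm) rfl rfl]
    exact hP
  have hj0 : jResM A M ≠ 0 := fun h =>
    hasLead_jqModC.ne_zero one_ne_zero (congrArg Subtype.val h)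
  have hg0 : g ≠ 0 := fun h => (wSeries q (ResidueField A)).ne_zero (by rw [← hg, h]; rfl)
  have hk2 : (2 : ResidueField A) ≠ 0 := fun h => by
    have := (CharP.cast_eq_zero_iff (ResidueField A) q 2).1 (by exact_mod_cast h)
    have := Nat.le_of_dvd two_pos this
    omega
  have key := congrArg Q.ord he
  rw [Q.ord_mul hg0 (pow_ne_zero a hj0), Curve.ord_pow, Curve.ord_pow] at key
  obtain ⟨c, hc⟩ := three_dvd_ord_jResM A M h2 hk2 Q hQ
  refine ⟨Q.ord (Polynomial.aeval (jResM A M) P) - a * c, ?_⟩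
  rw [hc] at key
  push_cast at key
  linarith

/-- At even level every node of the two-component data has thickness divisible by `3`. -/
theorem three_dvd_r (hq : 5 ≤ q) (hA : A.LiesOverPrime q) (h2 : 2 ∣ M)
    (T : TwoCompData q A F Fb)
    (hred : ∀ (f : F) (g : Fb), (∃ h : f ∈ T.V false, T.red false ⟨f, h⟩ = g) ↔
      HasGaussRed (residue A) (f : LaurentSeries Qb) (g : LaurentSeries (ResidueField A)))
    (hw : (T.w : LaurentSeries Qb) = (wSeries q Qb : LaurentSeries Qb))
    (hj : ∀ y, T.On y false → T.IsNode y → 0 ≤ (T.loc y false).ord (jResM A M))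
    (y : T.Pt) (hy : T.IsNode y) : 3 ∣ T.r y := by
  have hwV : T.w ∈ T.V false := T.mem_of_valuation_eq_one T.w_false
  set g := T.red false ⟨T.w, hwV⟩ with hg
  have hG : HasGaussRed (residue A) (T.w : LaurentSeries Qb)
      (g : LaurentSeries (ResidueField A)) := (hred _ _).1 ⟨hwV, rfl⟩
  have hW : HasGaussRed (residue A) (T.w : LaurentSeries Qb)
      (wSeries q (ResidueField A) : LaurentSeries (ResidueField A)) := by
    have h := hasGaussRed_coeffMap (π := residue A) (wSeries q A : LaurentSeries A)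
    rwa [coeffMap_wSeries, coeffMap_wSeries, ← hw] at h
  have h := three_dvd_ord_wSeries A q M hq hA h2 g (hG.unique hW) (T.loc y false) (hj y hy.1 hy)
  rw [hg, T.red_w_ord y hy.1 hy.2 hwV] at h
  exact_mod_cast h

end Nodes

end Fermat.Agent.LevelP.X0
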