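import Fermat.Agent.Reduction.AuxLevel

/-!
# Ramification of `j` on `X₀(N)` in characteristic `ℓ ≥ 5`, `ℓ ∤ N`

The genus does not drop under reduction, so by counting the degree of `dj` the places over
`0`, `1728` and `∞` do not collide under reduction and `j` is unramified elsewhere.
-/

set_option autoImplicit false

noncomputable section

namespace Fermat.Agent.LevelP.X0

open AlgebraicCurve Fermat.Agent.Curve Fermat.Agent.Reduction KaehlerDifferential
open scoped IntermediateField

variable {K : Type*} [Field K] {k : Type*} [Field k] {A : ValuationSubring K}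
variable {F : Type*} [Field F] [Algebra K F] {Fb : Type*} [Field Fb] [Algebra k Fb]
variable {π : A →+* k}
variable [IsAlgClosed K] [CharZero K] [IsAlgClosed k] [IsFunctionField1 K F]
  [IsFunctionField1 k Fb]

section OneField

variable {L E : Type*} [Field L] [Field E] [Algebra L E] [IsFunctionField1 L E]

/-- The reduced divisor on a finite set of places. -/
def oneDiv (T : Finset (Place L E)) : Divisor L E := ∑ P ∈ T, Finsupp.single P 1

omit [IsFunctionField1 L E] in
theorem oneDiv_apply [DecidableEq (Place L E)] (T : Finset (Place L E)) (P : Place L E) :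
    oneDiv T P = if P ∈ T then 1 else 0 := by
  simp [oneDiv, Finset.sum_apply', Finsupp.single_apply]

theorem degree_oneDiv [IsAlgClosed L] (T : Finset (Place L E)) :
    Divisor.degree (oneDiv T) = T.card := by
  simp [oneDiv, map_sum, Divisor.degree_single, deg_eq_one]

omit [IsFunctionField1 L E] in
theorem transcendental_sub_algebraMap {j : E} (htr : Transcendental L j) (c : L) :
    Transcendental L (j - algebraMap L E c) := fun h => htr (by
  have := h.add (isAlgebraic_algebraMap c)
  rwa [sub_add_cancel] at this)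

omit [IsFunctionField1 L E] in
theorem sub_algebraMap_ne_zero {j : E} (htr : Transcendental L j) (c : L) :
    j - algebraMap L E c ≠ 0 :=
  fun h => htr (sub_eq_zero.mp h ▸ isAlgebraic_algebraMap c)

/-- The divisor of zeros of `j - c`. -/
def zeroDiv (j : E) (c : L) : Divisor L E :=
  divisorOf (j - algebraMap L E c) + poleDivisor j

omit [IsFunctionField1 L E] in
theorem ord_sub_of_pole {j : E} (htr : Transcendental L j) (c : L) (P : Place L E)
    (h : P.ord j < 0) : P.ord (j - algebraMap L E c) = P.ord j := by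
  rw [sub_eq_add_neg, ord_add_eq_of_lt P (by simpa using sub_algebraMap_ne_zero htr 0)
    (by rwa [ord_neg, ord_algebraMap])]

theorem zeroDiv_apply {j : E} (htr : Transcendental L j) (c : L) (P : Place L E) :
    zeroDiv j c P = if P.ord j < 0 then 0 else P.ord (j - algebraMap L E c) := by
  rw [zeroDiv, Finsupp.add_apply, divisorOf_apply, poleDivisor_apply]
  split_ifs with h
  · rw [ord_sub_of_pole htr c P h]; omega
  · omega

theorem exists_value [IsAlgClosed L] {j : E} (htr : Transcendental L j) (P : Place L E)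
    (h : 0 ≤ P.ord j) : ∃ c : L, 0 < P.ord (j - algebraMap L E c) ∧
      ∀ c', c' ≠ c → P.ord (j - algebraMap L E c') = 0 := by
  refine ⟨evalAt P j, (evalAt_spec P (mem_of_ord_nonneg P h)).resolve_left
    (sub_algebraMap_ne_zero htr _), fun c' hne => ?_⟩
  have hpos := (evalAt_spec P (mem_of_ord_nonneg P h)).resolve_left
    (sub_algebraMap_ne_zero htr (evalAt P j))
  rw [show j - algebraMap L E c' =
      algebraMap L E (evalAt P j - c') + (j - algebraMap L E (evalAt P j)) by rw [map_sub]; ring,
    ord_add_eq_of_lt P ((map_ne_zero _).mpr (sub_ne_zero.mpr hne.symm)) (by rwa [ord_algebraMap]),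
    ord_algebraMap]

theorem zeroDiv_nonneg [IsAlgClosed L] {j : E} (htr : Transcendental L j) (c : L)
    (P : Place L E) : 0 ≤ zeroDiv j c P := by
  rw [zeroDiv_apply htr]
  split_ifs with h
  · exact le_rfl
  · obtain ⟨d, hd, hd'⟩ := exists_value htr P (not_lt.mp h)
    rcases eq_or_ne c d with rfl | hne
    · exact hd.le
    · exact (hd' c hne).ge

theorem degree_zeroDiv {j : E} (htr : Transcendental L j) (c : L) :
    Divisor.degree (zeroDiv j c) = Module.finrank L⟮j⟯ E := by
  rw [zeroDiv, map_add, degree_divisorOf, degree_poleDivisor htr, zero_add]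

omit [IsFunctionField1 L E] in
theorem ord_D_sub {j : E} (c : L) (P : Place L E) :
    P.ordDifferential (D L E (j - algebraMap L E c)) = P.ordDifferential (D L E j) := by
  rw [map_sub, Derivation.map_algebraMap, sub_zero]

/-- The divisor `zeros over a, b - poles - their support`. -/
def lineDiv (j : E) (a b : L) (T : Finset (Place L E)) : Divisor L E :=
  zeroDiv j a + zeroDiv j b - poleDivisor j - oneDiv T

/-- The places over `a`, `b` and `∞`. -/
def lineSupp (j : E) (a b : L) : Finset (Place L E) :=
  (zeroDiv j a + zeroDiv j b + poleDivisor j).support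

theorem mem_lineSupp [IsAlgClosed L] {j : E} (htr : Transcendental L j) (a b : L)
    (P : Place L E) : P ∈ lineSupp j a b ↔
      P.ord j < 0 ∨ 0 < P.ord (j - algebraMap L E a) ∨ 0 < P.ord (j - algebraMap L E b) := by
  rw [lineSupp, Finsupp.mem_support_iff, Finsupp.add_apply, Finsupp.add_apply, poleDivisor_apply]
  have h1 := zeroDiv_nonneg htr a P
  have h2 := zeroDiv_nonneg htr b P
  rw [zeroDiv_apply htr] at h1 h2 ⊢
  rw [zeroDiv_apply htr]
  by_cases h : P.ord j < 0
  · rw [if_pos h, if_pos h]
    simp only [h, true_or, iff_true]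
    omega
  · rw [if_neg h] at h1 h2 ⊢
    rw [if_neg h]
    simp only [h, false_or]
    omega

/-- Pointwise value of `lineDiv`. -/
theorem lineDiv_apply [IsAlgClosed L] {j : E} (htr : Transcendental L j) {a b : L} (hab : a ≠ b)
    (P : Place L E) :
    (P.ord j < 0 ∧ lineDiv j a b (lineSupp j a b) P = P.ord j - 1) ∨
    ∃ c : L, 0 ≤ P.ord j ∧ 0 < P.ord (j - algebraMap L E c) ∧
      ((c = a ∨ c = b) ∧ lineDiv j a b (lineSupp j a b) P = P.ord (j - algebraMap L E c) - 1 ∨
        (c ≠ a ∧ c ≠ b) ∧ lineDiv j a b (lineSupp j a b) P = 0) := by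
  classical
  simp only [lineDiv, Finsupp.sub_apply, Finsupp.add_apply, poleDivisor_apply, oneDiv_apply,
    mem_lineSupp htr, zeroDiv_apply htr]
  by_cases h : P.ord j < 0
  · refine Or.inl ⟨h, ?_⟩
    simp only [h, if_true, true_or]
    omega
  · refine Or.inr ?_
    obtain ⟨c, hc, hc'⟩ := exists_value htr P (not_lt.mp h)
    refine ⟨c, not_lt.mp h, hc, ?_⟩
    simp only [h, if_false, false_or]
    rcases eq_or_ne c a with rfl | hca
    · refine Or.inl ⟨Or.inl rfl, ?_⟩
      rw [hc' b hab.symm, if_pos (Or.inl hc)]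
      omega
    · rcases eq_or_ne c b with rfl | hcb
      · refine Or.inl ⟨Or.inr rfl, ?_⟩
        rw [hc' a hab, if_pos (Or.inr hc)]
        omega
      · refine Or.inr ⟨⟨hca, hcb⟩, ?_⟩
        rw [hc' a hca.symm, hc' b hcb.symm, if_neg (by simp)]
        omega

end OneField

variable (G : GaussData π F Fb)

include G in
/-- No collision over `0`, `1728`, `∞`, and no ramification elsewhere, after reduction. -/
theorem ord_sub_le_three {j : F} {jb : Fb} (hj : (j, jb) ∈ G.graph) (htr : Transcendental k jb)
    (hn : Module.finrank k⟮jb⟯ Fb = Module.finrank K⟮j⟯ F)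
    (hsep : Algebra.IsSeparable k⟮jb⟯ Fb)
    (h0 : ∀ P : Place K F, 0 < P.ord j → P.ord j ≤ 3)
    (h1728 : ∀ P : Place K F, 0 < P.ord (j - algebraMap K F 1728) →
      P.ord (j - algebraMap K F 1728) ≤ 2)
    (hram : ∀ c : K, c ≠ 0 → c ≠ 1728 → ∀ P : Place K F, 0 < P.ord (j - algebraMap K F c) →
      P.ord (j - algebraMap K F c) = 1)
    (hgenus : genusFF K F ≤ genusFF k Fb) (hk1728 : (1728 : k) ≠ 0)
    (c : k) (Q : Place k Fb) (hQ : 0 < Q.ord (jb - algebraMap k Fb c)) :
    Q.ord (jb - algebraMap k Fb c) ≤ 3 := by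
  classical
  have : CharZero F := charZero_of_injective_algebraMap (algebraMap K F).injective
  have htrj : Transcendental K j := G.transcendental_of_mem hj htr
  have : FiniteDimensional K⟮j⟯ F := finiteDimensional_adjoin htrj
  obtain ⟨r, hdeg, hr⟩ := G.exists_placeCompat hgenus
  have hg : genusFF k Fb = genusFF K F := le_antisymm G.genusFF_le hgenus
  have hω : D K F j ≠ 0 := D_ne_zero_of_isSeparable htrj
  have hωb : D k Fb jb ≠ 0 := D_ne_zero_of_isSeparable htr
  have hmd : ∀ {f : F} {g : Fb}, (f, g) ∈ G.graph → g ≠ 0 →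
      Finsupp.mapDomain r (divisorOf f) = divisorOf g := fun {f g} h hg =>
    Finsupp.ext fun Q => by rw [hr f g h hg (divisorOf f) (fun P => rfl) Q, divisorOf_apply]
  have hjb0 : jb ≠ 0 := by simpa using sub_algebraMap_ne_zero htr 0
  -- poles go to poles
  have hpole : Finsupp.mapDomain r (poleDivisor (K := K) j) = poleDivisor jb := by
    have hle : poleDivisor (K := k) jb ≤ Finsupp.mapDomain r (poleDivisor (K := K) j) := by
      intro Q
      have hb : 0 ≤ Finsupp.mapDomain r (poleDivisor (K := K) j) :=
        Finsupp.mapDomain_nonneg (poleDivisor_nonneg _)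
      have hs : 0 ≤ Finsupp.mapDomain r (divisorOf j + poleDivisor (K := K) j) :=
        Finsupp.mapDomain_nonneg fun P => by
          simp only [Finsupp.coe_zero, Pi.zero_apply, Finsupp.add_apply, divisorOf_apply,
            poleDivisor_apply]
          omega
      have hb' := hb Q
      have hs' := hs Q
      rw [Finsupp.mapDomain_add, hmd hj hjb0] at hs'
      simp only [Finsupp.coe_zero, Pi.zero_apply, Finsupp.add_apply, divisorOf_apply] at hs' hb'
      rw [poleDivisor_apply]
      omega
    refine (eq_of_le_of_not_lt hle fun hlt => ?_).symm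
    obtain ⟨Q, hQ'⟩ : ∃ Q, poleDivisor (K := k) jb Q ≠
        Finsupp.mapDomain r (poleDivisor (K := K) j) Q := by
      by_contra hall
      push Not at hall
      exact hlt.ne (Finsupp.ext hall)
    have h1 : poleDivisor (K := k) jb + Finsupp.single Q 1 ≤
        Finsupp.mapDomain r (poleDivisor (K := K) j) := by
      intro Q'
      have := hle Q'
      rcases eq_or_ne Q' Q with rfl | hne
      · simp only [Finsupp.add_apply, Finsupp.single_eq_same]; omega
      · simpa [Finsupp.single_eq_of_ne hne] using this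
    have h2 := degree_mono h1
    rw [map_add, Divisor.degree_single, deg_eq_one, degree_mapDomain_eq hdeg,
      degree_poleDivisor htr, degree_poleDivisor htrj, hn] at h2
    omega
  have hzero : ∀ a : A, Finsupp.mapDomain r (zeroDiv j (a : K)) = zeroDiv jb (π a) := fun a => by
    rw [zeroDiv, zeroDiv, Finsupp.mapDomain_add, hpole,
      hmd (G.graph.sub_mem hj (G.algebraMap_mem a)) (sub_algebraMap_ne_zero htr _)]
  have hz0 : Finsupp.mapDomain r (zeroDiv j (0 : K)) = zeroDiv jb (0 : k) := by
    have := hzero 0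
    rwa [map_zero, ZeroMemClass.coe_zero] at this
  have hz1 : Finsupp.mapDomain r (zeroDiv j (1728 : K)) = zeroDiv jb (1728 : k) := by
    have := hzero 1728
    rwa [map_ofNat π 1728, show (((1728 : A)) : K) = 1728 from map_ofNat A.subtype 1728] at this
  set T := lineSupp j (0 : K) (1728 : K) with hT
  set Tb := lineSupp jb (0 : k) (1728 : k) with hTb
  have hsub : Tb ⊆ T.image r := by
    rw [hTb, lineSupp, ← hz0, ← hz1, ← hpole, ← Finsupp.mapDomain_add, ← Finsupp.mapDomain_add]
    exact Finsupp.mapDomain_support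
  have hK : canonicalDivisorOf hω = lineDiv j (0 : K) (1728 : K) T := by
    ext P
    rw [canonicalDivisorOf_apply]
    rcases lineDiv_apply htrj (by norm_num : (0 : K) ≠ 1728) P with
      ⟨h, e⟩ | ⟨c', -, hc, ⟨-, e⟩ | ⟨⟨n0, n1⟩, e⟩⟩
    · rw [e, ordDifferential_D_of_ne_zero P (Int.cast_ne_zero.mpr h.ne)]
    · rw [e, ← ord_D_sub c', ordDifferential_D_of_ne_zero P (Int.cast_ne_zero.mpr hc.ne')]
    · rw [e, ← ord_D_sub c', ordDifferential_D_of_ne_zero P (Int.cast_ne_zero.mpr hc.ne'),
        hram c' n0 n1 P hc, sub_self]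
  have hk : lineDiv jb (0 : k) (1728 : k) Tb ≤ canonicalDivisorOf hωb := by
    intro P
    rw [canonicalDivisorOf_apply]
    rcases lineDiv_apply htr hk1728.symm P with
      ⟨-, e⟩ | ⟨c', hge, hc, ⟨-, e⟩ | ⟨-, e⟩⟩
    · rw [e]; exact sub_one_le_ordDifferential_D P hωb
    · rw [e, ← ord_D_sub c']
      exact sub_one_le_ordDifferential_D P (by rwa [map_sub, Derivation.map_algebraMap, sub_zero])
    · rw [e]; exact ordDifferential_D_nonneg P (mem_of_ord_nonneg P hge)
  -- degrees
  have d1 := degree_canonicalDivisorOf hω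
  have d2 := degree_canonicalDivisorOf hωb
  rw [hK, lineDiv, map_sub, map_sub, map_add, degree_zeroDiv htrj, degree_zeroDiv htrj,
    degree_poleDivisor htrj, degree_oneDiv] at d1
  have d3 := degree_mono hk
  rw [d2, hg, ← d1, lineDiv, map_sub, map_sub, map_add, degree_zeroDiv htr, degree_zeroDiv htr,
    degree_poleDivisor htr, degree_oneDiv, hn] at d3
  have hcard : T.card ≤ Tb.card := by omega
  have hcard' : (T.image r).card = T.card :=
    le_antisymm Finset.card_image_le (hcard.trans (Finset.card_le_card hsub))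
  have hinj : Set.InjOn r T := Finset.card_image_iff.mp hcard'
  have hlineeq : lineDiv jb (0 : k) (1728 : k) Tb = canonicalDivisorOf hωb := by
    refine eq_of_le_of_not_lt hk fun hlt => ?_
    obtain ⟨P, hP⟩ : ∃ P, lineDiv jb (0 : k) (1728 : k) Tb P < canonicalDivisorOf hωb P := by
      by_contra hall
      push Not at hall
      exact hlt.ne (Finsupp.ext fun P => le_antisymm (hk P) (hall P))
    have h1 : lineDiv jb (0 : k) (1728 : k) Tb + Finsupp.single P 1 ≤ canonicalDivisorOf hωb := by
      intro P'
      have := hk P'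
      rcases eq_or_ne P' P with rfl | hne
      · simp only [Finsupp.add_apply, Finsupp.single_eq_same]; omega
      · simpa [Finsupp.single_eq_of_ne hne] using this
    have h2 := degree_mono h1
    rw [map_add, Divisor.degree_single, deg_eq_one, d2, hg, ← d1, lineDiv, map_sub, map_sub,
      map_add, degree_zeroDiv htr, degree_zeroDiv htr, degree_poleDivisor htr, degree_oneDiv,
      hn] at h2
    have := Finset.card_image_le (s := T) (f := r)
    have := Finset.card_le_card hsub
    omega
  have hge : 0 ≤ Q.ord jb := by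
    by_contra h
    rw [ord_sub_of_pole htr c Q (not_le.mp h)] at hQ
    omega
  -- the fibre over `0` or `1728`
  have fibre : ∀ (a : K) (ab : k), (a = 0 ∨ a = 1728) →
      Finsupp.mapDomain r (zeroDiv j a) = zeroDiv jb ab →
      0 < Q.ord (jb - algebraMap k Fb ab) → Q.ord (jb - algebraMap k Fb ab) ≤ 3 := by
    intro a ab ha hmap hpos
    have hz : zeroDiv jb ab Q = Q.ord (jb - algebraMap k Fb ab) := by
      rw [zeroDiv_apply htr, if_neg (not_lt.mpr hge)]
    have hsupp : ∀ P ∈ (zeroDiv j a).support, P ∈ T ∧ 0 < P.ord (j - algebraMap K F a) ∧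
        P.ord (j - algebraMap K F a) = zeroDiv j a P := by
      intro P hP
      rw [Finsupp.mem_support_iff] at hP
      have h' := zeroDiv_nonneg htrj a P
      rw [zeroDiv_apply htrj] at hP h' ⊢
      by_cases h : P.ord j < 0
      · simp [h] at hP
      · rw [if_neg h] at hP h' ⊢
        refine ⟨(mem_lineSupp htrj _ _ P).2 (Or.inr ?_), by omega, rfl⟩
        rcases ha with rfl | rfl
        · exact Or.inl (by omega)
        · exact Or.inr (by omega)
    have hQsupp : Q ∈ (Finsupp.mapDomain r (zeroDiv j a)).support := by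
      rw [Finsupp.mem_support_iff, hmap, hz]; omega
    obtain ⟨P, hP, rfl⟩ := Finset.mem_image.1 (Finsupp.mapDomain_support hQsupp)
    rw [← hz, ← hmap, Finsupp.mapDomain_apply' (T : Set (Place K F)) _
      (fun P' hP' => (hsupp P' hP').1) hinj (hsupp P hP).1]
    obtain ⟨-, hpos', he⟩ := hsupp P hP
    rw [← he]
    rcases ha with rfl | rfl
    · have := h0 P (by simpa using hpos')
      simpa using this
    · have := h1728 P hpos'
      omega
  rcases eq_or_ne c 0 with rfl | hc0
  · exact fibre 0 0 (Or.inl rfl) hz0 hQ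
  rcases eq_or_ne c 1728 with rfl | hc1
  · exact fibre 1728 1728 (Or.inr rfl) hz1 hQ
  -- elsewhere
  rcases lineDiv_apply htr hk1728.symm Q with ⟨h, -⟩ | ⟨c', -, hc', h⟩
  · omega
  obtain rfl : c' = c := by
    by_contra hne
    have h1 : Q.ord (algebraMap k Fb (c' - c)) = 0 := ord_algebraMap Q _
    have h2 : (jb - algebraMap k Fb c) - (jb - algebraMap k Fb c') = algebraMap k Fb (c' - c) := by
      rw [map_sub]; ring
    obtain ⟨c'', -, hc''⟩ := exists_value htr Q hge
    rcases eq_or_ne c c'' with rfl | hne'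
    · have := hc'' c' hne
      omega
    · have := hc'' c hne'
      omega
  rcases h with ⟨h | h, -⟩ | ⟨-, e⟩
  · exact absurd h hc0
  · exact absurd h hc1
  · rw [hlineeq, canonicalDivisorOf_apply, ← ord_D_sub c'] at e
    have := sub_one_le_ordDifferential_D Q (f := jb - algebraMap k Fb c')
      (by rwa [map_sub, Derivation.map_algebraMap, sub_zero])
    omega

open ModularCurve IsLocalRing in
/-- Ramification indices of `j̄` on `X₀(M)` modulo `p ≥ 5` are at most `3`. -/
theorem jRes_ord_le_three (M : ℕ) [NeZero M] {p : ℕ} [Fact p.Prime] (hpM : ¬ p ∣ M) (hp5 : 5 ≤ p)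
    (A : ValuationSubring (AlgebraicClosure ℚ)) (hA : A.LiesOverPrime p) (c : ResidueField A)
    (Q : Place (ResidueField A) (modularFunctionFieldFullC (ResidueField A) M))
    (hQ : 0 < Q.ord (jRes (ResidueField A) M - algebraMap (ResidueField A) _ c)) :
    Q.ord (jRes (ResidueField A) M - algebraMap (ResidueField A) _ c) ≤ 3 := by
  have hp : p.Prime := Fact.out
  have : IsAlgClosed (ResidueField A) := EC.isAlgClosed_residueField A
  have hN : (p = 2 → 3 ∣ M) ∧ (p = 3 → 2 ∣ M) := ⟨by omega, by omega⟩
  have hn : ¬ p ∣ 1728 := fun h => by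
    rw [show 1728 = 2 ^ 6 * 3 ^ 3 by norm_num, hp.dvd_mul] at h
    rcases h with h | h <;> have := Nat.le_of_dvd (by norm_num) (hp.dvd_of_dvd_pow h) <;> omega
  exact ord_sub_le_three (gaussDataX0 M hpM A hA) (j := jBar M) (jBar_jRes_mem M A)
    (transcendental_jRes M _) (finrank_jRes M hpM A hA) (isSeparable_jRes M hpM A hA)
    (jBar_ord_le_three M) (jBar_ord_le_two M) (fun _ h0 h1 => jBar_ord_eq_one M h0 h1)
    (genusFF_le_modL M hpM A hA hN) (by exact_mod_cast EC.natCast_residue_ne_zero A hp hA hn) c Q hQ

end Fermat.Agent.LevelP.X0
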