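import Fermat.Agent.Igusa.UnitPolyOfUnit
import Fermat.Agent.Igusa.EtaExpansions
import Fermat.Agent.Modular.Conjugates
import Fermat.Agent.Reduction.PsiPrime

/-!
# The polynomial of `Δ(τ)/Δ(pτ)` over `ℤ̄[j]`

Its constant coefficient is a nonzero constant, and modulo `p` its trace is `Δ(q)/Δ(q^p)`, which
is therefore a polynomial of degree `p - 1` in `j`.
-/

set_option autoImplicit false

noncomputable section

open scoped MatrixGroups
open UpperHalfPlane Polynomial ModularCurve CongruenceSubgroup Finset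

namespace Fermat.Agent.LevelP.X0

open Fermat.Agent.Modular Fermat.Agent.Igusa

section Lead

variable {R : Type*} [CommRing R]

theorem coeff_evalJ_leading (N : ℕ) [NeZero N] (r : R[X]) :
    (evalJ R N r).coeff (-((N : ℤ) * r.natDegree)) = r.leadingCoeff := by
  rw [evalJ, coe_eval₂RingHom, eval₂_eq_sum_range, HahnSeries.coeff_sum,
    Finset.sum_eq_single r.natDegree]
  · rw [HahnSeries.C_apply, HahnSeries.coeff_single_mul, sub_zero, coeff_evalJ_pow_self, mul_one,
      leadingCoeff]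
  · intro i hi hne'
    rw [HahnSeries.C_apply, HahnSeries.coeff_single_mul, sub_zero, coeff_evalJ_pow_of_lt, mul_zero]
    have h : i < r.natDegree := by have := Finset.mem_range.1 hi; omega
    have h' : (i : ℤ) < r.natDegree := by exact_mod_cast h
    have hN : (1 : ℤ) ≤ N := by exact_mod_cast Nat.pos_of_ne_zero (NeZero.ne N)
    nlinarith
  · intro h; simp at h

theorem coeff_evalJ_of_lt (N : ℕ) [NeZero N] (r : R[X]) {k : ℤ}
    (hk : k < -((N : ℤ) * r.natDegree)) : (evalJ R N r).coeff k = 0 := by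
  rw [evalJ, coe_eval₂RingHom, eval₂_eq_sum_range, HahnSeries.coeff_sum]
  refine Finset.sum_eq_zero fun i hi => ?_
  rw [HahnSeries.C_apply, HahnSeries.coeff_single_mul, sub_zero, coeff_evalJ_pow_of_lt, mul_zero]
  have h : i ≤ r.natDegree := by have := Finset.mem_range.1 hi; omega
  have h' : (i : ℤ) ≤ r.natDegree := by exact_mod_cast h
  have hN : (0 : ℤ) ≤ N := Int.natCast_nonneg N
  nlinarith

theorem natDegree_eq_of_hasLead (N : ℕ) [NeZero N] {r : R[X]} {m : ℤ} {c : R}
    (h : HasLead (evalJ R N r) m c) (hc : c ≠ 0) : (N : ℤ) * r.natDegree = -m := by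
  have hr : r ≠ 0 := fun h0 => h.ne_zero hc (by rw [h0, map_zero])
  have := h.index_unique hc ⟨fun k hk => coeff_evalJ_of_lt N r hk, coeff_evalJ_leading N r⟩
    (leadingCoeff_ne_zero.2 hr)
  omega

theorem evalJ_eq_qExpand (N : ℕ) [NeZero N] (r : R[X]) :
    evalJ R N r = qExpand R N (r.eval₂ HahnSeries.C (jqModC R)) := by
  have h : evalJ R N = (qExpand R N).comp (eval₂RingHom HahnSeries.C (jqModC R)) := by
    refine Polynomial.ringHom_ext' (RingHom.ext fun a => ?_) (by simp)
    simp [HahnSeries.C_apply, qExpand_single]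
  exact DFunLike.congr_fun h r

end Lead

variable (p : ℕ) [Fact p.Prime]

/-- The expansion of `Δ(τ)/Δ(pτ)`. -/
def wSeries (R : Type*) [CommRing R] : (LaurentSeries R)ˣ := (ratioUnit R p)⁻¹

theorem wSeries_mul (R : Type*) [CommRing R] :
    (wSeries p R : LaurentSeries R) * qExpand R p (deltaSeries R) = deltaSeries R := by
  have h : wSeries p R * Units.map (qExpand R p).toMonoidHom (deltaUnitOne R) = deltaUnitOne R := by
    rw [wSeries, ratioUnit, inv_div, div_mul_cancel]
  simpa using congrArg Units.val h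

theorem coeffMap_wSeries {R S : Type*} [CommRing R] [CommRing S] (f : R →+* S) :
    coeffMap f (wSeries p R : LaurentSeries R) = (wSeries p S : LaurentSeries S) := by
  have h : Units.map (coeffMap f).toMonoidHom (wSeries p R) = wSeries p S := by
    rw [wSeries, wSeries, map_inv, ratioUnit, ratioUnit, _root_.map_div]
    congr 2 <;> ext1 <;> simp [coeffMap_qExpand, coeffMap_deltaSeries]
  exact congrArg Units.val h

theorem hasLead_wSeries (R : Type*) [CommRing R] :
    HasLead (wSeries p R : LaurentSeries R) (1 - (p : ℤ)) 1 := by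
  have h1 : HasLead ((deltaUnitOne R : (LaurentSeries R)ˣ) : LaurentSeries R) 1 ((1 : Rˣ) : R) := by
    simpa using hasLead_deltaSeries (R := R)
  have h2 : HasLead ((Units.map (qExpand R p).toMonoidHom (deltaUnitOne R) :
      (LaurentSeries R)ˣ) : LaurentSeries R) p ((1 : Rˣ) : R) := by
    simpa using (hasLead_deltaSeries (R := R)).qExpand p
  rw [wSeries, ratioUnit, inv_div, div_eq_mul_inv, Units.val_mul]
  exact h1.mul' h2.inv_unit (by ring) (by simp)

/-- `Δ(τ)/Δ(pτ)`. -/
def wFun (τ : ℍ) : ℂ := ModularForm.discriminant τ / ModularForm.discriminant (mulH p τ)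

theorem wFun_eq (τ : ℍ) : wFun p τ = (p : ℂ) ^ 12 / discRatio p τ := by
  have hp : (p : ℂ) ≠ 0 := Nat.cast_ne_zero.2 (Nat.Prime.ne_zero Fact.out)
  have := ModularForm.discriminant_ne_zero τ
  have := ModularForm.discriminant_ne_zero (mulH p τ)
  rw [wFun, discRatio]
  field_simp

theorem hasQExp_wFun : HasQExp 1 (wFun p) (wSeries p ℂ : LaurentSeries ℂ) := by
  have hd := Igusa.hasQExp_deltaSeries
  have h := hd.div (hd.comp_mulH p) one_pos fun τ => ModularForm.discriminant_ne_zero _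
  have he : (wSeries p ℂ : LaurentSeries ℂ) = deltaSeries ℂ / qExpand ℂ p (deltaSeries ℂ) := by
    rw [eq_div_iff ((hasLead_deltaSeries (R := ℂ)).qExpand p |>.ne_zero one_ne_zero), wSeries_mul]
  rw [he]
  exact h.congr fun τ => rfl

theorem wFun_smul_of_mem {g : SL(2, ℤ)} (hg : g ∈ Gamma0 p) (τ : ℍ) :
    wFun p (g • τ) = wFun p τ := by
  rw [wFun_eq, wFun_eq,
    discRatio_smul_of_dvd g p ((ZMod.intCast_zmod_eq_zero_iff_dvd _ _).1 (Gamma0_mem.1 hg))]

/-- Expansions at the other cusp. -/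
theorem exists_exp_of_not_mem (S : Subring ℂ) (hroots : ∀ z : ℂ, z ^ p = 1 → z ∈ S)
    {g : SL(2, ℤ)} (hg : g ∉ Gamma0 p) :
    ∃ (x : LaurentSeries S) (c : Sˣ), HasQExp (p : ℝ) (fun τ => wFun p (g • τ))
        (coeffMap S.subtype (HahnSeries.C ((p : S) ^ 12) * x)) ∧
      HasLead x ((p : ℤ) - 1) (c : S) := by
  obtain ⟨a, d, b, ha, hd, hag, had, h⟩ := discRatio_smul_eq g p
  have ha1 : a = 1 := by
    rw [hag]
    refine (Fact.out : p.Prime).coprime_iff_not_dvd.2 fun hdvd => hg ?_
    rw [Gamma0_mem, ZMod.intCast_zmod_eq_zero_iff_dvd]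
    exact Int.natCast_dvd.2 hdvd
  subst ha1
  have hdp : d = p := by rwa [one_mul] at had
  subst d
  set c := rootUnit S p hroots b
  refine ⟨qExpand S p (deltaSeries S) * ↑(deltaUnit 1 c ^ (-1 : ℤ)), c⁻¹, ?_, ?_⟩
  · have h1 := (Igusa.hasQExp_deltaSeries.dilate_period one_ne_zero p)
    rw [one_mul, ← coeffMap_deltaSeries S.subtype, ← coeffMap_qExpand] at h1
    have h2 := hasQExp_discriminant_affineH_zpow (S := S) (N := p) (a := 1) (d := p) (e := 1) b
      rfl c (val_rootUnit S p hroots b) (-1)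
    rw [map_mul, map_mul, Igusa.coeffMap_C, map_pow, map_natCast]
    refine ((h1.mul h2).const_mul ((p : ℂ) ^ 12)).congr fun τ => ?_
    rw [wFun_eq, h τ, Pi.mul_apply, Nat.cast_one, one_pow, one_mul, zpow_neg_one, div_div_eq_mul_div]
    ring
  · exact ((hasLead_deltaSeries (R := S)).qExpand p).mul' (hasLead_deltaUnit_zpow 1 c (-1))
      (by simp [sub_eq_add_neg]) (by simp)

/-- The polynomial of `Δ(τ)/Δ(pτ)`. -/
theorem exists_wPoly (S : Subring ℂ) (hroots : ∀ z : ℂ, z ^ p = 1 → z ∈ S) :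
    ∃ P : S[X][X], P.Monic ∧ evalJU (wSeries p S : LaurentSeries S) P = 0 ∧
      (∃ c : S, c ≠ 0 ∧ P.coeff 0 = C c) ∧
      ∀ {k : Type} [Field k] [CharP k p] (φ : S →+* k), ∃ r : k[X], r.natDegree = p - 1 ∧
        r.eval₂ HahnSeries.C (jqModC k) = (wSeries p k : LaurentSeries k) := by
  classical
  have hp : p.Prime := Fact.out
  have hpR : (0 : ℝ) < p := by exact_mod_cast hp.pos
  let ι := SL(2, ℤ) ⧸ Gamma0 p
  let _ : Fintype ι := cosetFintype p
  let i₀ : ι := ((1 : SL(2, ℤ)) : ι)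
  have hi₀ : i₀.out⁻¹ ∈ Gamma0 p := by
    obtain ⟨h, hh⟩ := QuotientGroup.mk_out_eq_mul (Gamma0 p) (1 : SL(2, ℤ))
    show ((1 : SL(2, ℤ)) : ι).out⁻¹ ∈ _
    rw [hh, one_mul]
    exact inv_mem h.2
  have hne : ∀ q : ι, q ≠ i₀ → q.out⁻¹ ∉ Gamma0 p := by
    intro q hq h
    refine hq ?_
    rw [← QuotientGroup.out_eq' q]
    exact QuotientGroup.eq.2 (by simpa using h)
  have hcard : Fintype.card ι = p + 1 := by
    have : NeZero (1 * p) := ⟨by simpa using hp.ne_zero⟩
    rw [show Fintype.card ι = dedekindPsi p from card_cosets, ← one_mul p,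
      Reduction.dedekindPsi_mul_prime one_ne_zero hp (by simpa using hp.ne_one)]
    simp [dedekindPsi, Finset.sum_filter]
  let f : ι → ℍ → ℂ := fun q τ => wFun p (q.out⁻¹ • τ)
  let u : LaurentSeries S := qExpand S p (wSeries p S : LaurentSeries S)
  have hu : HasLead u (p * (1 - (p : ℤ))) 1 := (hasLead_wSeries p S).qExpand p
  have hdata : ∀ q : ι, ∃ (x : LaurentSeries S) (c : S), c ≠ 0 ∧
      HasQExp (p : ℝ) (f q) (coeffMap S.subtype x) ∧ (q = i₀ → x = u) ∧
      (q ≠ i₀ → (∀ {k : Type} [Field k] [CharP k p] (φ : S →+* k), coeffMap φ x = 0) ∧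
        HasLead x ((p : ℤ) - 1) c) := by
    intro q
    rcases eq_or_ne q i₀ with rfl | hq
    · refine ⟨u, 1, one_ne_zero, ?_, fun _ => rfl, fun h => absurd rfl h⟩
      have h := (hasQExp_wFun p).dilate_period one_ne_zero p
      rw [one_mul] at h
      refine HasQExp.congr ?_ fun τ => (wFun_smul_of_mem p hi₀ τ).symm
      rwa [coeffMap_qExpand, coeffMap_wSeries]
    · obtain ⟨x, c, hx, hl⟩ := exists_exp_of_not_mem p S hroots (hne q hq)
      refine ⟨HahnSeries.C ((p : S) ^ 12) * x, (p : S) ^ 12 * (c : S),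
        mul_ne_zero (pow_ne_zero _ (Nat.cast_ne_zero.2 hp.ne_zero)) c.ne_zero, hx,
        fun h => absurd h hq, fun _ => ⟨fun φ => ?_, ?_⟩⟩
      · rw [map_mul, Igusa.coeffMap_C, map_pow, map_natCast, CharP.cast_eq_zero,
          zero_pow (by norm_num), map_zero, zero_mul]
      · exact (HasLead.single 0 _).mul' hl (zero_add _) rfl
  choose x c hc hx hxu hother using hdata
  have hperm : ∀ γ : SL(2, ℤ), ∃ σ : Equiv.Perm ι, ∀ i τ, f i (γ • τ) = f (σ i) τ := fun γ =>
    ⟨MulAction.toPerm γ⁻¹, fun i τ => cosetFun_smul (fun g hg => wFun_smul_of_mem p hg) γ i τ⟩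
  obtain ⟨P, hPm, -, hPx, -, -⟩ :=
    exists_cosetPoly (J := kleinJ) (fun γ τ => kleinJ_smul γ τ) hasQExp_kleinJ S p f x hx hperm
  have hcoe : ∀ i, evalJ S p (P.coeff i) = (∏ k, (X - C (x k))).coeff i := fun i => by
    rw [← coeff_map, hPx]
  refine ⟨P, hPm, evalJU_eq_zero_of_map_eq p hPx (hxu i₀ rfl), ?_, fun {k} _ _ φ => ?_⟩
  · have hneS : (-1 : S) ^ Fintype.card ι ≠ 0 := pow_ne_zero _ (neg_ne_zero.2 one_ne_zero)
    have h1 := (hxu i₀ rfl ▸ hu : HasLead (x i₀) _ _).mul
      (HasLead.prod (Finset.univ.erase i₀) fun i hi => (hother i (Finset.ne_of_mem_erase hi)).2)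
    rw [Finset.mul_prod_erase _ _ (Finset.mem_univ i₀), one_mul, Finset.sum_const,
      Finset.card_erase_of_mem (Finset.mem_univ i₀), Finset.card_univ, hcard, add_tsub_cancel_right,
      nsmul_eq_mul, show (p : ℤ) * (1 - p) + p * (p - 1) = 0 by ring] at h1
    have h2 : HasLead (evalJ S p (P.coeff 0)) 0
        ((-1 : S) ^ Fintype.card ι * ∏ i ∈ Finset.univ.erase i₀, c i) := by
      rw [hcoe, coeff_zero_eq_eval_zero, eval_prod]
      simp only [eval_sub, eval_X, eval_C, zero_sub]
      rw [show (∏ i, -x i) = HahnSeries.C ((-1 : S) ^ Fintype.card ι) * ∏ i, x i by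
        rw [map_pow, map_neg, map_one, ← Finset.card_univ, ← Finset.prod_const,
          ← Finset.prod_mul_distrib]
        exact Finset.prod_congr rfl fun i _ => (neg_one_mul (x i)).symm]
      exact (HasLead.single 0 _).mul' h1 (zero_add 0) rfl
    have hne0 : (-1 : S) ^ Fintype.card ι * ∏ i ∈ Finset.univ.erase i₀, c i ≠ 0 :=
      mul_ne_zero hneS (Finset.prod_ne_zero_iff.2 fun i _ => hc i)
    have hd := natDegree_eq_of_hasLead p h2 hne0
    have hd0 : (P.coeff 0).natDegree = 0 := by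
      have : ((P.coeff 0).natDegree : ℤ) = 0 := by
        apply mul_left_cancel₀ (show (p : ℤ) ≠ 0 by exact_mod_cast hp.ne_zero)
        linarith
      exact_mod_cast this
    refine ⟨(P.coeff 0).coeff 0, fun h0 => h2.ne_zero hne0 ?_, eq_C_of_natDegree_eq_zero hd0⟩
    rw [eq_C_of_natDegree_eq_zero hd0, h0, map_zero, map_zero]
  · refine ⟨(-(P.coeff p)).map φ, ?_, ?_⟩
    all_goals
      have hrk : evalJ k p ((-(P.coeff p)).map φ) = qExpand k p (wSeries p k : LaurentSeries k) := by
        have hp' : (∏ k, (X - C (x k))).coeff p = -∑ i, x i := by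
          have := prod_X_sub_C_coeff_card_pred (Finset.univ : Finset ι) x
            (by rw [Finset.card_univ, hcard]; omega)
          rwa [Finset.card_univ, hcard, add_tsub_cancel_right] at this
        rw [← coeffMap_evalJ, map_neg (evalJ S p), hcoe, hp', neg_neg, map_sum,
          Finset.sum_eq_single i₀ (fun i _ hi => (hother i hi).1 φ) (by simp), hxu i₀ rfl,
          coeffMap_qExpand, coeffMap_wSeries]
    · have := natDegree_eq_of_hasLead p (hrk ▸ (hasLead_wSeries p k).qExpand p) one_ne_zero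
      have h1 : ((( -(P.coeff p)).map φ).natDegree : ℤ) = (p : ℤ) - 1 := by
        apply mul_left_cancel₀ (show (p : ℤ) ≠ 0 by exact_mod_cast hp.ne_zero)
        linarith
      have := hp.one_le
      omega
    · exact qExpand_injective p ((evalJ_eq_qExpand p _).symm.trans hrk)

end Fermat.Agent.LevelP.X0
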