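import Fermat.Agent.LevelP.X0.Fields
import Fermat.Prelude.Def_ModularCurve_ModularUnit
import Fermat.Agent.LevelP.X0.Tame
import Fermat.Agent.LevelP.X0.UnitPoly
import Fermat.Agent.Reduction.DifferentSmall

/-!
# The modular unit `Δ(τ)/Δ(pτ)` at a place over `p`

Its reduction along the first component is `Δ ^ (1 - p)`, a polynomial of degree `p - 1` in `j̄`
whose zeros, counted in `X₀(M)`, have multiplicity prime to `p`.
-/

set_option autoImplicit false
set_option synthInstance.maxHeartbeats 400000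

noncomputable section

namespace Fermat.Agent.LevelP.X0

/-- Shortcut for a slow instance search; reducibly the instance that search finds. -/
local instance (priority := high) algebraLaurentShortcutUnit (K : Type*) [Field K]
    (S : IntermediateField K (LaurentSeries K)) : Algebra K S :=
  inferInstance

open AlgebraicCurve ModularCurve IsLocalRing Fermat.Agent.Modular Fermat.Agent.BadPrime
  Fermat.Agent.Curve
open Polynomial (X C)
open scoped MatrixGroups

local notation "Qb" => AlgebraicClosure ℚ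
local notation "Γℚ" => (AlgebraicClosure ℚ ≃ₐ[ℚ] AlgebraicClosure ℚ)

variable (A : ValuationSubring Qb) (p M : ℕ) [Fact p.Prime] [NeZero M]
  [IsAlgClosed (ResidueField A)]

local notation "F" => modularFunctionFieldBar (M * p)
local notation "Fb" => modularFunctionFieldFullC (ResidueField A) M

theorem coeffEmb_deltaSeries (L : Type*) [Field L] [Algebra ℚ L] :
    coeffEmb L ModularCurve.deltaSeries = Igusa.deltaSeries L := by
  rw [← Igusa.coeffMap_deltaSeries (algebraMap ℚ L)]
  rfl

theorem coeffEmb_modularUnitSeries :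
    coeffEmb Qb (modularUnitSeries p) = (wSeries p Qb : LaurentSeries Qb) := by
  have hne : qExpand Qb p (Igusa.deltaSeries Qb) ≠ 0 :=
    ((Igusa.hasLead_deltaSeries (R := Qb)).qExpand p).ne_zero one_ne_zero
  refine mul_right_cancel₀ hne ?_
  rw [wSeries_mul, ← coeffEmb_deltaSeries Qb, coeffEmb, ← coeffMap_qExpand, ← map_mul,
    show ModularCurve.qExpand ℚ p ModularCurve.deltaSeries = deltaSeriesN p from rfl,
    modularUnitSeries_mul_deltaSeriesN]

theorem modularUnit_mem :
    coeffEmb Qb (modularUnitSeries p) ∈ modularFunctionFieldBar (M * p) := by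
  have hne : qExpand Qb p (Igusa.deltaSeries Qb) ≠ 0 :=
    ((Igusa.hasLead_deltaSeries (R := Qb)).qExpand p).ne_zero one_ne_zero
  rw [coeffEmb_modularUnitSeries, show (wSeries p Qb : LaurentSeries Qb) =
    Igusa.deltaSeries Qb / qExpand Qb p (Igusa.deltaSeries Qb) from
      (eq_div_iff hne).2 (wSeries_mul p Qb),
    show modularFunctionFieldBar (M * p) = laurentBaseChange Qb
      (modularFunctionFieldFull (M * p)) from rfl, ← Reduction.fullC_le_base]
  exact Reduction.div_qExpand_deltaSeries_mem (M * p) Qb p (dvd_mul_left p M)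
    (Nat.cast_ne_zero.2 (Nat.Prime.ne_zero Fact.out))

/-- `Δ(τ)/Δ(pτ)` in the function field. -/
def unitW : F := ⟨coeffEmb Qb (modularUnitSeries p), modularUnit_mem p M⟩

theorem coe_unitW : (unitW p M : LaurentSeries Qb) = (wSeries p Qb : LaurentSeries Qb) :=
  coeffEmb_modularUnitSeries p

theorem unitW_ne_zero : unitW p M ≠ 0 := fun h => by
  have := congrArg (fun x : F => (x : LaurentSeries Qb)) h
  simp only [coe_unitW, ZeroMemClass.coe_zero] at this
  exact (wSeries p Qb).ne_zero this

theorem unitW_fixed (σ : Γℚ) : act p M σ • unitW p M = unitW p M :=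
  Subtype.ext (coeffMap_coeffEmb σ _)

omit [IsAlgClosed (ResidueField A)] in
/-- The subring `ι(A)` of `ℂ` contains the `p`-th roots of unity. -/
theorem mem_imageRing_of_pow_eq_one (ι : Qb →+* ℂ) (z : ℂ) (hz : z ^ p = 1) :
    z ∈ A.toSubring.map ι := by
  have hp : p.Prime := Fact.out
  obtain ⟨ζ, hζ⟩ := IsAlgClosed.exists_root (Polynomial.cyclotomic p Qb)
    (by rw [Polynomial.degree_cyclotomic]; exact_mod_cast (Nat.totient_pos.2 hp.pos).ne')
  have : NeZero p := ⟨hp.ne_zero⟩
  have hζ' : IsPrimitiveRoot (ι ζ) p :=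
    (Polynomial.isRoot_cyclotomic_iff.1 hζ).map_of_injective ι.injective
  obtain ⟨i, -, rfl⟩ := hζ'.eq_pow_of_pow_eq_one hz
  rw [← map_pow]
  refine Subring.mem_map.2 ⟨_, ?_, rfl⟩
  have h1 : A.valuation (ζ ^ i) = 1 := by
    have h := congrArg A.valuation (Polynomial.isRoot_cyclotomic_iff.1 hζ).pow_eq_one
    rw [map_pow, map_one] at h
    have hz : A.valuation ζ = 1 := by
      rcases lt_trichotomy (A.valuation ζ) 1 with hlt | heq | hgt
      · exact absurd h (pow_lt_one₀ zero_le hlt hp.ne_zero).ne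
      · exact heq
      · exact absurd h (one_lt_pow₀ hgt hp.ne_zero).ne'
    rw [map_pow, hz, one_pow]
  exact ((A.valuation_le_one_iff _).1 h1.le)

omit [IsAlgClosed (ResidueField A)] in
/-- A monic relation over `A[j]` with constant nonzero constant term, and the residue. -/
theorem exists_relation :
    ∃ P : Polynomial (Polynomial A), P.Monic ∧
      Igusa.evalJU (wSeries p A : LaurentSeries A) P = 0 ∧
      (∃ c : A, c ≠ 0 ∧ P.coeff 0 = C c) ∧
      (A.LiesOverPrime p → ∃ r : Polynomial (ResidueField A), r.natDegree = p - 1 ∧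
        r.eval₂ HahnSeries.C (jqModC (ResidueField A)) =
          (wSeries p (ResidueField A) : LaurentSeries (ResidueField A))) := by
  let ι : Qb →+* ℂ := Reduction.qbarEmb
  let S := A.toSubring.map ι
  let e : A.toSubring ≃+* S := A.toSubring.equivMapOfInjective ι ι.injective
  let g : S →+* A := e.symm.toRingHom
  obtain ⟨P, hP, hP0, ⟨c, hc, hPc⟩, hk⟩ :=
    exists_wPoly p S (mem_imageRing_of_pow_eq_one A p ι)
  refine ⟨P.map (Polynomial.mapRingHom g), hP.map _, ?_, ⟨g c, ?_, ?_⟩, fun hA => ?_⟩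
  · have h := congrArg (coeffMap g) hP0
    rwa [Igusa.coeffMap_evalJU, coeffMap_wSeries, map_zero] at h
  · exact (map_ne_zero_iff g e.symm.injective).2 hc
  · rw [Polynomial.coeff_map, hPc, Polynomial.coe_mapRingHom, Polynomial.map_C]
  · have := EC.charP_residueField A (Fact.out : p.Prime) hA
    exact hk ((residue A).comp g)

/-- No zero or pole at finite `j`. -/
theorem ord_unitW (P : Place Qb F) (hP : jBarMp p M ∈ P.toValuationSubring) :
    P.ord (unitW p M) = 0 := by
  set A : ValuationSubring Qb := ⊤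
  obtain ⟨Q, hQ, hQ0, ⟨c, hc, hQc⟩, -⟩ := exists_relation A p
  set O := P.toValuationSubring
  set ev : Polynomial Qb →+* F := (Polynomial.aeval (jBarMp p M)).toRingHom
  set Q' : Polynomial F := (Q.map (Polynomial.mapRingHom A.subtype)).map ev with hQ'
  have hval : ∀ q : Polynomial Qb, ((ev q : F) : LaurentSeries Qb) =
      q.eval₂ HahnSeries.C (jqModC Qb) := by
    intro q
    show (modularFunctionFieldBar (M * p)).val (Polynomial.aeval (jBarMp p M) q) = _
    rw [← Polynomial.aeval_algHom_apply, Polynomial.aeval_def]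
    exact Polynomial.eval₂_congr (RingHom.ext fun a => (Reduction.C_eq_algebraMap a).symm)
      (show coeffEmb Qb jq = jqModC Qb by rw [coeffEmb, ← jqModC_rat, coeffMap_jqModC]) rfl
  have hroot : Q'.eval (unitW p M) = 0 := by
    refine Subtype.ext ?_
    have h := congrArg (coeffMap A.subtype) hQ0
    rw [Igusa.coeffMap_evalJU, coeffMap_wSeries, map_zero] at h
    rw [ZeroMemClass.coe_zero, ← h, hQ', Polynomial.eval_map]
    show (modularFunctionFieldBar (M * p)).toSubfield.subtype
      (Polynomial.eval₂ ev (unitW p M) _) = _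
    rw [Polynomial.hom_eval₂, show (modularFunctionFieldBar (M * p)).toSubfield.subtype (unitW p M) =
      (wSeries p Qb : LaurentSeries Qb) from coe_unitW p M]
    exact Polynomial.eval₂_congr (RingHom.ext hval) rfl rfl
  have hcoef : ∀ i, Q'.coeff i ∈ O := by
    intro i
    rw [hQ', Polynomial.coeff_map]
    show Polynomial.aeval (jBarMp p M) _ ∈ O
    rw [Polynomial.aeval_eq_sum_range]
    refine sum_mem fun n _ => ?_
    rw [Algebra.smul_def]
    exact mul_mem (mem_of_ord_nonneg P (by rw [ord_algebraMap])) (pow_mem hP n)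
  have hmon : Q'.Monic := (hQ.map _).map _
  obtain ⟨Q'', hQ'', -, hQ''m⟩ := Polynomial.lifts_and_degree_eq_and_monic
    (f := O.subtype) (p := Q') ((Polynomial.lifts_iff_coeff_lifts _).2 fun i => ⟨⟨_, hcoef i⟩, rfl⟩)
    hmon
  have hw : unitW p M ∈ O := by
    have hint : IsIntegral O (unitW p M) :=
      ⟨Q'', hQ''m, by
        rw [show (algebraMap O F) = O.subtype from rfl, Polynomial.eval₂_eq_eval_map, hQ'', hroot]⟩
    obtain ⟨y, hy⟩ := IsIntegrallyClosed.isIntegral_iff.1 hint
    exact hy ▸ y.2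
  have hw' : (unitW p M)⁻¹ ∈ O := by
    have hc0 : Q'.coeff 0 = algebraMap Qb F (c : Qb) := by
      rw [hQ', Polynomial.coeff_map, Polynomial.coeff_map, hQc, Polynomial.coe_mapRingHom,
        Polynomial.map_C]
      exact Polynomial.aeval_C _ _
    have hcne : algebraMap Qb F (c : Qb) ≠ 0 :=
      (map_ne_zero _).2 fun h => hc (Subtype.ext h)
    have hsplit : unitW p M * Q'.divX.eval (unitW p M) = -algebraMap Qb F (c : Qb) := by
      have h := congrArg (Polynomial.eval (unitW p M)) Q'.X_mul_divX_add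
      rw [Polynomial.eval_add, Polynomial.eval_mul, Polynomial.eval_X, Polynomial.eval_C,
        hroot, hc0] at h
      exact eq_neg_of_add_eq_zero_left h
    have hinv : (unitW p M)⁻¹ = -Q'.divX.eval (unitW p M) * algebraMap Qb F (c : Qb)⁻¹ := by
      refine inv_eq_of_mul_eq_one_right ?_
      rw [← mul_assoc, mul_neg, hsplit, neg_neg, map_inv₀, mul_inv_cancel₀ hcne]
    rw [hinv]
    refine mul_mem (neg_mem ?_) (mem_of_ord_nonneg P (by rw [ord_algebraMap]))
    rw [Polynomial.eval_eq_sum_range]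
    exact sum_mem fun n _ => mul_mem (by rw [Polynomial.coeff_divX]; exact hcoef _) (pow_mem hw n)
  have h1 := ord_nonneg_of_mem P hw
  have h2 := ord_nonneg_of_mem P hw'
  rw [Place.ord_inv] at h2
  omega

variable (hpM : ¬ p ∣ M) (hA : A.LiesOverPrime p)

theorem hasGaussRed_unitW :
    HasGaussRed (residue A) (unitW p M : LaurentSeries Qb)
      (wSeries p (ResidueField A) : LaurentSeries (ResidueField A)) := by
  have h := hasGaussRed_coeffMap (π := residue A) (wSeries p A : LaurentSeries A)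
  rwa [coeffMap_wSeries, coeffMap_wSeries, ← coe_unitW p M] at h

theorem unitW_false : (V A p M false).valuation (unitW p M) = 1 := by
  refine valuation_eq_one_of_inv_mem _ (unitW_ne_zero p M)
    ((mem_V_iff A p M false _).2 ⟨_, hasGaussRed_unitW A p M⟩)
    ((mem_V_iff A p M false _).2
      ⟨(wSeries p (ResidueField A) : LaurentSeries (ResidueField A))⁻¹, ?_⟩)
  rw [toFirst_false, IntermediateField.coe_inv]
  exact (hasGaussRed_unitW A p M).inv (wSeries p (ResidueField A)).ne_zero

omit [IsAlgClosed (ResidueField A)] in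
/-- The Atkin–Lehner relation of the unit. -/
theorem alRel_wSeries {γ : SL(2, ℤ)} (h10 : γ 1 0 = (M : ℤ)) (h11 : γ 1 1 = (p : ℤ))
    (ι : Qb →+* ℂ) :
    Reduction.ALRel p γ ι (wSeries p Qb : LaurentSeries Qb)
      (HahnSeries.C ((p : Qb) ^ 12) * (wSeries p Qb : LaurentSeries Qb)⁻¹) := by
  refine ⟨wFun p, by rw [coeffMap_wSeries]; exact hasQExp_wFun p, ?_⟩
  have hne : ∀ τ, wFun p τ ≠ 0 := fun τ =>
    div_ne_zero (ModularForm.discriminant_ne_zero _) (ModularForm.discriminant_ne_zero _)
  have h := (Igusa.hasQExp_units_inv (RingHom.id ℂ) one_pos hne (wSeries p ℂ)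
    (by rw [coeffMap_id]; exact hasQExp_wFun p))
  rw [coeffMap_id, Units.val_inv_eq_inv_val] at h
  have hc : coeffMap ι (HahnSeries.C ((p : Qb) ^ 12) * (wSeries p Qb : LaurentSeries Qb)⁻¹) =
      HahnSeries.C ((p : ℂ) ^ 12) * (wSeries p ℂ : LaurentSeries ℂ)⁻¹ := by
    rw [map_mul, Igusa.coeffMap_C, map_pow, map_natCast, map_inv₀, coeffMap_wSeries]
  rw [hc]
  refine (h.const_mul ((p : ℂ) ^ 12)).congr fun z => ?_
  have hdet : γ 0 0 * γ 1 1 - γ 0 1 * γ 1 0 = 1 := by rw [← Matrix.det_fin_two]; exact γ.2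
  rw [h10, h11] at hdet
  let δ : SL(2, ℤ) := ⟨!![γ 0 0 * p, γ 0 1; (M : ℤ), 1],
    by rw [Matrix.det_fin_two_of]; linarith⟩
  have hp0 : (p : ℂ) ≠ 0 := Nat.cast_ne_zero.2 (Nat.Prime.ne_zero Fact.out)
  have hden : ((M : ℂ) * z + 1) ≠ 0 := by
    have h0 := UpperHalfPlane.denom_ne_zero (Matrix.SpecialLinearGroup.mapGL ℝ δ) z
    simpa [UpperHalfPlane.denom, δ] using h0
  have key : mulH p (γ • mulH p z) = δ • z := by
    apply UpperHalfPlane.ext
    rw [coe_mulH, UpperHalfPlane.coe_specialLinearGroup_apply,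
      UpperHalfPlane.coe_specialLinearGroup_apply, coe_mulH]
    simp only [δ, eq_intCast, Matrix.of_apply, Matrix.cons_val', Matrix.cons_val_zero,
      Matrix.cons_val_one, Matrix.empty_val', Matrix.cons_val_fin_one, h10, h11]
    push_cast
    field_simp
    try ring
  have hγd : UpperHalfPlane.denom (Matrix.SpecialLinearGroup.mapGL ℝ γ) (mulH p z) =
      (p : ℂ) * ((M : ℂ) * z + 1) := by
    simp [UpperHalfPlane.denom, coe_mulH, h10, h11]
    ring
  have hδd : UpperHalfPlane.denom (Matrix.SpecialLinearGroup.mapGL ℝ δ) z = (M : ℂ) * z + 1 := by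
    simp [UpperHalfPlane.denom, δ]
  have := ModularForm.discriminant_ne_zero z
  have := ModularForm.discriminant_ne_zero (mulH p z)
  show (p : ℂ) ^ 12 * (wFun p z)⁻¹ = wFun p (γ • mulH p z)
  rw [wFun, wFun, key, Igusa.discriminant_smul, Igusa.discriminant_smul, hγd, hδd]
  field_simp
  try ring

theorem swap_unitW (hpM : ¬ p ∣ M) :
    ((swap p M (unitW p M) : F) : LaurentSeries Qb) =
      HahnSeries.C ((p : Qb) ^ 12) * (wSeries p Qb : LaurentSeries Qb)⁻¹ := by
  have hp : p.Prime := Fact.out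
  let ι : Qb →+* ℂ := Reduction.qbarEmb
  obtain ⟨γ, h10, h11⟩ := Reduction.exists_sl_atkinLehner hp hpM
  obtain ⟨s1, s2, -⟩ := swap_spec p M hpM
  let R := Algebra.adjoin Qb (Reduction.levelGens Qb (M * p))
  have hle : ∀ x ∈ R, x ∈ modularFunctionFieldBar (M * p) := fun x hx => by
    rw [show modularFunctionFieldBar (M * p) = laurentBaseChange Qb
      (modularFunctionFieldFull (M * p)) from rfl, Reduction.laurentBaseChange_full_eq_adjoin]
    exact IntermediateField.algebra_adjoin_le_adjoin _ _ hx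
  have hrel : ∀ (x : LaurentSeries Qb) (hx : x ∈ R), Reduction.ALRel p γ ι x
      ((swap p M ⟨x, hle x hx⟩ : F) : LaurentSeries Qb) := by
    intro x hx
    induction hx using Algebra.adjoin_induction with
    | mem v hv =>
      obtain ⟨d, hd0, hpd0, hd, hv'⟩ := Reduction.alGens_cases hp hv
      have hα : (⟨coeffEmb Qb (qExpand ℚ d jq), hle _ (Algebra.subset_adjoin
          (Reduction.coeffEmb_qExpand_mem_levelGens (hd.trans (dvd_mul_right M p))))⟩ : F) =
            heckeAlphaBar Qb M p (Reduction.jdElem Qb hd) := Subtype.ext rfl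
      have hβ : (⟨coeffEmb Qb (qExpand ℚ (p * d) jq), hle _ (Algebra.subset_adjoin
          (Reduction.coeffEmb_qExpand_mem_levelGens
            ((mul_dvd_mul_left p hd).trans (dvd_of_eq (mul_comm p M)))))⟩ : F) =
            heckeBetaBar Qb M p (Reduction.jdElem Qb hd) := Subtype.ext (by
        show coeffEmb Qb (qExpand ℚ (p * d) jq) = _
        rw [coe_heckeBetaBar, Reduction.coe_jdElem]
        simp only [coeffEmb]
        rw [← coeffMap_qExpand, qExpand_qExpand])
      obtain ⟨g1, g2⟩ := Reduction.alRel_gen (ι := ι) h10 h11 hd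
      rcases hv' with rfl | rfl
      · rw [hα, s1, ← hβ]; exact g1
      · rw [hβ, s2, ← hα]; exact g2
    | algebraMap c =>
      rw [show (⟨algebraMap Qb (LaurentSeries Qb) c, _⟩ : F) = algebraMap Qb F c from rfl,
        AlgEquiv.commutes]
      exact Reduction.alRel_algebraMap c
    | add u v hu hv hu' hv' =>
      rw [show (⟨u + v, hle _ (add_mem hu hv)⟩ : F) = ⟨u, hle u hu⟩ + ⟨v, hle v hv⟩ from rfl,
        map_add, IntermediateField.coe_add]
      exact hu'.add hv'
    | mul u v hu hv hu' hv' =>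
      rw [show (⟨u * v, hle _ (mul_mem hu hv)⟩ : F) = ⟨u, hle u hu⟩ * ⟨v, hle v hv⟩ from rfl,
        map_mul, IntermediateField.coe_mul]
      exact hu'.mul hv'
  have hmem : (unitW p M : LaurentSeries Qb) ∈
      IntermediateField.adjoin Qb (Reduction.levelGens Qb (M * p)) := by
    rw [← Reduction.laurentBaseChange_full_eq_adjoin]
    exact (unitW p M).2
  obtain ⟨a, ha, b, hb, hab⟩ := IntermediateField.mem_adjoin_iff_div.1 hmem
  have hb0 : b ≠ 0 := fun h => (unitW_ne_zero p M) (Subtype.ext (by rw [hab, h, div_zero]; rfl))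
  have hWb : unitW p M * ⟨b, hle b hb⟩ = ⟨a, hle a ha⟩ := Subtype.ext (by
    show (unitW p M : LaurentSeries Qb) * b = a
    rw [hab, div_mul_cancel₀ _ hb0])
  have hne : ((swap p M ⟨b, hle b hb⟩ : F) : LaurentSeries Qb) ≠ 0 := fun h => hb0 (by
    have h0 : (swap p M ⟨b, hle b hb⟩ : F) = 0 := Subtype.ext h
    exact congrArg Subtype.val ((map_eq_zero_iff _ (swap p M).injective).1 h0))
  have h1 := (alRel_wSeries p M h10 h11 ι).mul (hrel b hb)
  have hWb' : (wSeries p Qb : LaurentSeries Qb) * b = a := by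
    rw [← coe_unitW p M, hab, div_mul_cancel₀ _ hb0]
  rw [hWb'] at h1
  have h2 := h1.unique (hrel a ha)
  rw [← hWb, map_mul, IntermediateField.coe_mul] at h2
  exact (mul_right_cancel₀ hne h2).symm

theorem unitW_true (hpM : ¬ p ∣ M) (hA : A.LiesOverPrime p) :
    (V A p M true).valuation (unitW p M / algebraMap Qb F ((p : Qb) ^ 12)) = 1 := by
  have hp0 : ((p : Qb) ^ 12) ≠ 0 := pow_ne_zero _ (Nat.cast_ne_zero.2 (Nat.Prime.ne_zero Fact.out))
  have hx : unitW p M / algebraMap Qb F ((p : Qb) ^ 12) ≠ 0 :=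
    div_ne_zero (unitW_ne_zero p M) ((map_ne_zero _).2 hp0)
  have hred : HasGaussRed (residue A)
      ((toFirst p M true (unitW p M / algebraMap Qb F ((p : Qb) ^ 12)) : F) : LaurentSeries Qb)
      (wSeries p (ResidueField A) : LaurentSeries (ResidueField A))⁻¹ := by
    rw [map_div₀, toFirst_algebraMap, toFirst_true, IntermediateField.coe_div, coe_algebraMap_FL,
      swap_unitW p M hpM, mul_div_assoc, ← mul_div_assoc, mul_div_cancel_left₀ _
        (HahnSeries.C_ne_zero hp0), ← coe_unitW p M]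
    exact (hasGaussRed_unitW A p M).inv (wSeries p (ResidueField A)).ne_zero
  refine valuation_eq_one_of_inv_mem _ hx ((mem_V_iff A p M true _).2 ⟨_, hred⟩)
    ((mem_V_iff A p M true _).2
      ⟨(wSeries p (ResidueField A) : LaurentSeries (ResidueField A))⁻¹⁻¹, ?_⟩)
  rw [map_inv₀, IntermediateField.coe_inv]
  exact hred.inv (inv_ne_zero (wSeries p (ResidueField A)).ne_zero)

/-- The residue is a polynomial of degree `p - 1` in `j̄`. -/
theorem red_unitW_eq (h : unitW p M ∈ V A p M false) :
    ∃ r : Polynomial (ResidueField A), r.natDegree = p - 1 ∧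
      red A p M hpM hA false ⟨unitW p M, h⟩ = Polynomial.aeval (jResM A M) r := by
  obtain ⟨-, -, -, -, hk⟩ := exists_relation A p
  obtain ⟨r, hr, hre⟩ := hk hA
  refine ⟨r, hr, red_eq_of_hasGaussRed A p M hpM hA false h ?_⟩
  have e : ((Polynomial.aeval (jResM A M) r : Fb) : LaurentSeries (ResidueField A)) =
      (wSeries p (ResidueField A) : LaurentSeries (ResidueField A)) := by
    show (modularFunctionFieldFullC (ResidueField A) M).val _ = _
    rw [← Polynomial.aeval_algHom_apply, Polynomial.aeval_def, ← hre]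
    exact Polynomial.eval₂_congr (RingHom.ext fun a => (Reduction.C_eq_algebraMap a).symm) rfl rfl
  rw [e, toFirst_false]
  exact hasGaussRed_unitW A p M

/-- At finite `j̄` the residue has no pole, and its zeros have order prime to `p`. -/
theorem ord_red_unitW (hp5 : 5 ≤ p) (h : unitW p M ∈ V A p M false)
    (Q : Place (ResidueField A) Fb) (hQ : jResM A M ∈ Q.toValuationSubring) :
    0 ≤ Q.ord (red A p M hpM hA false ⟨unitW p M, h⟩) ∧
      (0 < Q.ord (red A p M hpM hA false ⟨unitW p M, h⟩) →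
        ¬ (p : ℤ) ∣ 12 * Q.ord (red A p M hpM hA false ⟨unitW p M, h⟩)) := by
  have hp : p.Prime := Fact.out
  obtain ⟨r, hr, hred⟩ := red_unitW_eq A p M hpM hA h
  rw [hred]
  have htr : Transcendental (ResidueField A) (jResM A M) := Reduction.transcendental_jRes M _
  refine ⟨ord_nonneg_of_mem Q ?_, fun hpos => ?_⟩
  · rw [Polynomial.aeval_eq_sum_range]
    refine sum_mem fun n _ => ?_
    rw [Algebra.smul_def]
    exact mul_mem (mem_of_ord_nonneg Q (by rw [ord_algebraMap])) (pow_mem hQ n)
  set c := evalAt Q (jResM A M)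
  have hc : 0 < Q.ord (jResM A M - algebraMap (ResidueField A) Fb c) :=
    (evalAt_spec Q hQ).resolve_left (sub_algebraMap_ne_zero htr c)
  have hr0 : r ≠ 0 := fun h0 => by rw [h0, Polynomial.natDegree_zero] at hr; omega
  obtain ⟨q, hrq, hq⟩ := Polynomial.exists_eq_pow_rootMultiplicity_mul_and_not_dvd r hr0 c
  set m := r.rootMultiplicity c
  have hq0 : Q.ord (Polynomial.aeval (jResM A M) q) = 0 ∧
      Polynomial.aeval (jResM A M) q ≠ 0 := by
    rw [Polynomial.dvd_iff_isRoot, Polynomial.IsRoot] at hq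
    have e : Polynomial.aeval (jResM A M) q = algebraMap (ResidueField A) Fb (q.eval c) +
        (jResM A M - algebraMap (ResidueField A) Fb c) *
          Polynomial.aeval (jResM A M) (q /ₘ (X - C c)) := by
      conv_lhs => rw [← q.modByMonic_add_div (q := X - C c), Polynomial.modByMonic_X_sub_C_eq_C_eval]
      simp
    have hne0 : algebraMap (ResidueField A) Fb (q.eval c) ≠ 0 := (map_ne_zero _).2 hq
    have hne : Polynomial.aeval (jResM A M) q ≠ 0 := fun h0 =>
      htr ⟨q, fun h1 => hq (by rw [h1, Polynomial.eval_zero]), h0⟩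
    refine ⟨?_, hne⟩
    rw [e]
    rcases eq_or_ne (Polynomial.aeval (jResM A M) (q /ₘ (X - C c))) 0 with h1 | h1
    · rw [h1, mul_zero, add_zero, ord_algebraMap]
    rw [ord_add_eq_of_lt Q hne0 ?_, ord_algebraMap]
    rw [ord_algebraMap, Q.ord_mul (sub_algebraMap_ne_zero htr c) h1]
    have : 0 ≤ Q.ord (Polynomial.aeval (jResM A M) (q /ₘ (X - C c))) := by
      refine ord_nonneg_of_mem Q ?_
      rw [Polynomial.aeval_eq_sum_range]
      refine sum_mem fun n _ => ?_
      rw [Algebra.smul_def]
      exact mul_mem (mem_of_ord_nonneg Q (by rw [ord_algebraMap])) (pow_mem hQ n)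
    omega
  have hord : Q.ord (Polynomial.aeval (jResM A M) r) =
      m * Q.ord (jResM A M - algebraMap (ResidueField A) Fb c) := by
    rw [hrq, map_mul, map_pow, map_sub, Polynomial.aeval_X, Polynomial.aeval_C,
      Q.ord_mul (pow_ne_zero _ (sub_algebraMap_ne_zero htr c)) hq0.2, Curve.ord_pow, hq0.1, add_zero]
  have hm : m ≤ p - 1 := by
    rw [← hr]
    refine le_of_eq_of_le ?_ (Polynomial.natDegree_le_of_dvd (Polynomial.pow_rootMultiplicity_dvd r c) hr0)
    rw [Polynomial.natDegree_pow, Polynomial.natDegree_X_sub_C, mul_one]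
  have he := jRes_ord_le_three M hpM hp5 A hA c Q hc
  rw [hord] at hpos ⊢
  have hm0 : 0 < m := by
    rcases Nat.eq_zero_or_pos m with h0 | h0
    · simp [h0] at hpos
    · exact h0
  intro hdvd
  have hpi : Prime (p : ℤ) := Nat.prime_iff_prime_int.1 hp
  rcases hpi.dvd_or_dvd hdvd with h12 | hdvd
  · have h12' : p ∣ 12 := by exact_mod_cast h12
    have := Nat.le_of_dvd (by norm_num) h12'
    interval_cases p <;> first | omega | norm_num at hp
  rcases hpi.dvd_or_dvd hdvd with h' | h'
  · have := Int.le_of_dvd (by exact_mod_cast hm0) h'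
    omega
  · have := Int.le_of_dvd hc h'
    have : (5 : ℤ) ≤ p := by exact_mod_cast hp5
    change Q.ord (jResM A M - _) ≤ 3 at he
    omega

/-- There is a zero at finite `j̄`, for every `p`. -/
theorem exists_zero_red_unitW' (h : unitW p M ∈ V A p M false) :
    ∃ Q : Place (ResidueField A) Fb, jResM A M ∈ Q.toValuationSubring ∧
      0 < Q.ord (red A p M hpM hA false ⟨unitW p M, h⟩) := by
  obtain ⟨r, hr, hred⟩ := red_unitW_eq A p M hpM hA h
  have htr : Transcendental (ResidueField A) (jResM A M) := Reduction.transcendental_jRes M _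
  obtain ⟨c, hc⟩ := IsAlgClosed.exists_root r fun h0 => by
    have := Polynomial.natDegree_eq_zero_iff_degree_le_zero.2 h0.le
    have := (Fact.out : p.Prime).two_le
    omega
  obtain ⟨Q, hQ⟩ := exists_place_ord_pos (K := ResidueField A) (transcendental_sub_algebraMap htr c)
  have hjQ : jResM A M ∈ Q.toValuationSubring := by
    rw [← sub_add_cancel (jResM A M) (algebraMap (ResidueField A) Fb c)]
    exact add_mem (mem_of_ord_nonneg Q hQ.le) (mem_of_ord_nonneg Q (by rw [ord_algebraMap]))
  refine ⟨Q, hjQ, ?_⟩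
  obtain ⟨q, hq⟩ := Polynomial.dvd_iff_isRoot.2 hc
  have hne : ∀ s : Polynomial (ResidueField A), s ≠ 0 → Polynomial.aeval (jResM A M) s ≠ 0 :=
    fun s hs h0 => htr ⟨s, hs, h0⟩
  have hq0 : q ≠ 0 := fun h0 => by
    rw [h0, mul_zero] at hq
    rw [hq, Polynomial.natDegree_zero] at hr
    have := (Fact.out : p.Prime).two_le
    omega
  rw [hred, hq, map_mul, map_sub, Polynomial.aeval_X, Polynomial.aeval_C,
    Q.ord_mul (sub_algebraMap_ne_zero htr c) (hne q hq0)]
  have : 0 ≤ Q.ord (Polynomial.aeval (jResM A M) q) := by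
    refine ord_nonneg_of_mem Q ?_
    rw [Polynomial.aeval_eq_sum_range]
    refine sum_mem fun n _ => ?_
    rw [Algebra.smul_def]
    exact mul_mem (mem_of_ord_nonneg Q (by rw [ord_algebraMap])) (pow_mem hjQ n)
  omega

/-- There is a zero at finite `j̄`. -/
theorem exists_zero_red_unitW (_hp5 : 5 ≤ p) (h : unitW p M ∈ V A p M false) :
    ∃ Q : Place (ResidueField A) Fb, jResM A M ∈ Q.toValuationSubring ∧
      0 < Q.ord (red A p M hpM hA false ⟨unitW p M, h⟩) :=
  exists_zero_red_unitW' A p M hpM hA h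

/-- At finite `j̄` the residue has no pole; for `p ≥ 5` its zeros have order prime to `p`. -/
theorem ord_red_unitW' (h : unitW p M ∈ V A p M false)
    (Q : Place (ResidueField A) Fb) (hQ : jResM A M ∈ Q.toValuationSubring) :
    0 ≤ Q.ord (red A p M hpM hA false ⟨unitW p M, h⟩) ∧
      (5 ≤ p → 0 < Q.ord (red A p M hpM hA false ⟨unitW p M, h⟩) →
        ¬ (p : ℤ) ∣ 12 * Q.ord (red A p M hpM hA false ⟨unitW p M, h⟩)) := by
  refine ⟨?_, fun hp5 => (ord_red_unitW A p M hpM hA hp5 h Q hQ).2⟩
  obtain ⟨r, -, hred⟩ := red_unitW_eq A p M hpM hA h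
  rw [hred]
  refine ord_nonneg_of_mem Q ?_
  rw [Polynomial.aeval_eq_sum_range]
  refine sum_mem fun n _ => ?_
  rw [Algebra.smul_def]
  exact mul_mem (mem_of_ord_nonneg Q (by rw [ord_algebraMap])) (pow_mem hQ n)

end Fermat.Agent.LevelP.X0
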