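import Fermat.Agent.LevelP.Model.Data
import Fermat.Agent.BadPrime.GaussTwoBasic
import Fermat.Agent.EC.Red.ResidueQbar
import Fermat.Agent.LevelP.X0.FieldsAux
import Fermat.Agent.EichlerShimura.PlaceDescent
import Fermat.Agent.MordellWeil.Descent

/-!
# The two Gauss valuations of `X₀(Mp)` at a place over `p ∤ M`

`F = ℚ̄(X₀(Mp))`, `Fb = k(X₀(M))`; the first component is the Gauss valuation of `q`-expansions,
the second its transform by the Atkin–Lehner involution.
-/

set_option autoImplicit false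
set_option synthInstance.maxHeartbeats 400000
set_option maxHeartbeats 1000000
set_option linter.unusedSectionVars false
set_option linter.unusedVariables false

noncomputable section

namespace Fermat.Agent.LevelP.X0

open AlgebraicCurve ModularCurve IsLocalRing Fermat.Agent.Modular Fermat.Agent.BadPrime
  Fermat.Agent.Curve

local notation "Qb" => AlgebraicClosure ℚ
local notation "Γℚ" => (AlgebraicClosure ℚ ≃ₐ[ℚ] AlgebraicClosure ℚ)

local instance : Algebra.IsAlgebraic ℚ Qb := AlgebraicClosure.isAlgebraic ℚ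

variable (A : ValuationSubring Qb) (p M : ℕ) [Fact p.Prime] [NeZero M]

local notation "F" => modularFunctionFieldBar (M * p)
local notation "Fb" => modularFunctionFieldFullC (ResidueField A) M

/-- `j` at level `Mp`. -/
def jBarMp : F := jL (M * p) Qb

/-- `j̄` at level `M`. -/
def jResM : Fb := ⟨jqModC (ResidueField A), jqModC_mem_full (ResidueField A) M⟩

/-- The Galois action on coefficients. -/
def act : Γℚ →* SemilinearAut Qb F := arithmeticGalois (modularFunctionFieldFull (M * p))

variable (hpM : ¬ p ∣ M) (hA : A.LiesOverPrime p)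

/-- The Atkin–Lehner involution at `p` as an algebra automorphism. -/
theorem exists_swap (ι : Qb →+* ℂ) (hpM : ¬ p ∣ M) :
    ∃ w : F ≃ₐ[Qb] F, (∀ x, w (heckeAlphaBar Qb M p x) = heckeBetaBar Qb M p x) ∧
      (∀ x, w (heckeBetaBar Qb M p x) = heckeAlphaBar Qb M p x) ∧ ∀ x, w (w x) = x := by
  obtain ⟨w, h1, h2, h3⟩ := exists_atkinLehner_involution (L := Qb) p M ι hpM
  exact ⟨AlgEquiv.ofAlgHom w w (AlgHom.ext h3) (AlgHom.ext h3), h1, h2, h3⟩

/-- The Atkin–Lehner involution at `p`. -/
def swap : F ≃ₐ[Qb] F :=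
  letI := Classical.propDecidable
  if h : ∃ w : F ≃ₐ[Qb] F, (∀ x, w (heckeAlphaBar Qb M p x) = heckeBetaBar Qb M p x) ∧
      (∀ x, w (heckeBetaBar Qb M p x) = heckeAlphaBar Qb M p x) ∧ ∀ x, w (w x) = x
  then h.choose else AlgEquiv.refl

/-- The Gauss valuation ring of `q`-expansions. -/
def gauss : ValuationSubring F :=
  gaussRing (residue A) F (exists_scalable_quotient A (residue A) (M * p))

/-- The valuation rings of the two components. -/
def V : Bool → ValuationSubring F
  | false => gauss A p M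
  | true => (gauss A p M).comap (swap p M).toRingEquiv.toRingHom

/-- The identity on `false`, the Atkin–Lehner involution on `true`. -/
def toFirst : Bool → (F →+* F)
  | false => RingHom.id _
  | true => (swap p M).toRingEquiv.toRingHom

theorem mem_V_iff (i : Bool) (f : F) : f ∈ V A p M i ↔ toFirst p M i f ∈ gauss A p M := by
  cases i <;> rfl

variable [IsAlgClosed (ResidueField A)]

/-- Residues of level `Mp` lie in the function field of level `M`. -/
theorem hasGaussRed_mem_fullC (hpM : ¬ p ∣ M) (hA : A.LiesOverPrime p) {f : F}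
    {g : LaurentSeries (ResidueField A)}
    (h : HasGaussRed (residue A) (f : LaurentSeries Qb) g) :
    g ∈ modularFunctionFieldFullC (ResidueField A) M := by
  exact hasGaussRed_mem_fullC_mul_prime A hpM hA h

/-- The residue maps. -/
def red (i : Bool) : V A p M i →+* Fb :=
  ((gaussRed (residue A) F (exists_scalable_quotient A (residue A) (M * p))).comp
    (((toFirst p M i).comp (V A p M i).subtype).codRestrict (gauss A p M).toSubring
      fun x => (mem_V_iff A p M i x).1 x.2)).codRestrict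
    (modularFunctionFieldFullC (ResidueField A) M).toSubfield fun _ =>
      hasGaussRed_mem_fullC A p M hpM hA
        (hasGaussRed_gaussRed (residue A) F (exists_scalable_quotient A (residue A) (M * p)) _)

theorem exists_swap' (hpM : ¬ p ∣ M) :
    ∃ w : F ≃ₐ[Qb] F, (∀ x, w (heckeAlphaBar Qb M p x) = heckeBetaBar Qb M p x) ∧
      (∀ x, w (heckeBetaBar Qb M p x) = heckeAlphaBar Qb M p x) ∧ ∀ x, w (w x) = x :=
  exists_swap p M ((IsAlgClosed.lift (R := ℚ) (S := Qb) (M := ℂ) : Qb →ₐ[ℚ] ℂ) : Qb →+* ℂ) hpM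

omit [IsAlgClosed (ResidueField A)] in
theorem swap_spec (hpM : ¬ p ∣ M) :
    (∀ x, swap p M (heckeAlphaBar Qb M p x) = heckeBetaBar Qb M p x) ∧
      (∀ x, swap p M (heckeBetaBar Qb M p x) = heckeAlphaBar Qb M p x) ∧
      ∀ x, swap p M (swap p M x) = x := by
  rw [swap, dif_pos (exists_swap' p M hpM)]
  exact (exists_swap' p M hpM).choose_spec

theorem toFirst_false (f : F) : toFirst p M false f = f := rfl

theorem toFirst_true (f : F) : toFirst p M true f = swap p M f := rfl

theorem toFirst_algebraMap (i : Bool) (a : Qb) :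
    toFirst p M i (algebraMap Qb F a) = algebraMap Qb F a := by
  cases i
  · rfl
  · exact (swap p M).commutes a

theorem mem_gauss_iff {f : F} :
    f ∈ gauss A p M ↔ ∃ g, HasGaussRed (residue A) (f : LaurentSeries Qb) g := Iff.rfl

theorem mem_nonunits_iff_eq_zero_or {K : Type*} [Field K] (B : ValuationSubring K) (x : K) :
    x ∈ B.nonunits ↔ x = 0 ∨ x⁻¹ ∉ B := by
  rcases eq_or_ne x 0 with rfl | hx
  · simp
  rw [ValuationSubring.mem_nonunits_iff, ← B.valuation_le_one_iff, map_inv₀,
    inv_le_one₀ (zero_lt_iff.2 ((map_ne_zero _).2 hx)), not_le]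
  simp [hx]

theorem mem_nonunits_V_iff (i : Bool) (f : F) :
    f ∈ (V A p M i).nonunits ↔ toFirst p M i f ∈ (gauss A p M).nonunits := by
  rw [mem_nonunits_iff_eq_zero_or, mem_nonunits_iff_eq_zero_or, mem_V_iff, map_inv₀, map_eq_zero]

theorem hasGaussRed_red (i : Bool) (f : V A p M i) :
    HasGaussRed (residue A) ((toFirst p M i (f : F) : F) : LaurentSeries Qb)
      (red A p M hpM hA i f : LaurentSeries (ResidueField A)) :=
  hasGaussRed_gaussRed (residue A) F (exists_scalable_quotient A (residue A) (M * p))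
    ⟨toFirst p M i (f : F), (mem_V_iff A p M i f).1 f.2⟩

theorem red_eq_of_hasGaussRed (i : Bool) {f : F} {g : Fb} (hf : f ∈ V A p M i)
    (h : HasGaussRed (residue A) ((toFirst p M i f : F) : LaurentSeries Qb)
      (g : LaurentSeries (ResidueField A))) :
    red A p M hpM hA i ⟨f, hf⟩ = g :=
  Subtype.ext ((hasGaussRed_red A p M hpM hA i ⟨f, hf⟩).unique h)

theorem coe_act_smul (σ : Γℚ) (f : F) :
    ((act p M σ • f : F) : LaurentSeries Qb) = coeffMap (σ : Qb →+* Qb) (f : LaurentSeries Qb) :=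
  rfl

theorem act_smul_algebraMap (σ : Γℚ) (a : Qb) :
    act p M σ • algebraMap Qb F a = algebraMap Qb F (σ a) :=
  SemilinearAut.smul_algebraMap _ a

theorem act_smul_alpha {σ : Γℚ} {x : modularFunctionFieldBar M}
    (h : coeffMap (σ : Qb →+* Qb) (x : LaurentSeries Qb) = (x : LaurentSeries Qb)) :
    act p M σ • heckeAlphaBar Qb M p x = heckeAlphaBar Qb M p x :=
  Subtype.ext (by rw [coe_act_smul, coe_heckeAlphaBar, h])

theorem act_smul_beta {σ : Γℚ} {x : modularFunctionFieldBar M}
    (h : coeffMap (σ : Qb →+* Qb) (x : LaurentSeries Qb) = (x : LaurentSeries Qb)) :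
    act p M σ • heckeBetaBar Qb M p x = heckeBetaBar Qb M p x :=
  Subtype.ext (by rw [coe_act_smul, coe_heckeBetaBar, coeffMap_qExpand, h])

theorem valuation_eq_one_of_inv_mem {K : Type*} [Field K] (B : ValuationSubring K) {x : K}
    (hx : x ≠ 0) (h : x ∈ B) (h' : x⁻¹ ∈ B) : B.valuation x = 1 := by
  refine le_antisymm ((B.valuation_le_one_iff x).2 h) ?_
  rw [← B.valuation_le_one_iff, map_inv₀, inv_le_one₀ (zero_lt_iff.2 ((map_ne_zero _).2 hx))] at h'
  exact h'

theorem algebraMap_mem_V_iff (i : Bool) (a : Qb) : algebraMap Qb F a ∈ V A p M i ↔ a ∈ A := by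
  rw [mem_V_iff, toFirst_algebraMap]
  exact algebraMap_mem_gaussRing_iff (residue A) F _

theorem exists_fixing (f : F) : ∃ L : IntermediateField ℚ Qb, FiniteDimensional ℚ L ∧
    ∀ σ ∈ L.fixingSubgroup, act p M σ • f = f := by
  obtain ⟨K, hK, z, hz⟩ := Reduction.finiteCoeff_of_mem_laurentBaseChange _ f.2
  refine ⟨K, hK, fun σ hσ => Subtype.ext ?_⟩
  rw [coe_act_smul, ← hz, coeffMap_coeffMap]
  exact coeffMap_congr (RingHom.ext fun x => hσ x) z

theorem swap_act (σ : Γℚ) (f : F) : swap p M (act p M σ • f) = act p M σ • swap p M f := by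
  unfold swap
  split_ifs with h
  swap
  · rfl
  obtain ⟨h1, h2, -⟩ := h.choose_spec
  generalize h.choose = w at h1 h2 ⊢
  let φ : F →ₐ[Qb] F :=
    { toFun := fun x => act p M σ⁻¹ • w (act p M σ • x)
      map_one' := by rw [smul_one, map_one, smul_one]
      map_zero' := by rw [smul_zero, map_zero, smul_zero]
      map_mul' := fun x y => by simp only [smul_mul', map_mul]
      map_add' := fun x y => by simp only [smul_add, map_add]
      commutes' := fun a => by
        rw [act_smul_algebraMap, AlgEquiv.commutes, act_smul_algebraMap]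
        exact congrArg (algebraMap Qb F) (σ.symm_apply_apply a) }
  have hφ : φ = (w : F →ₐ[Qb] F) := by
    refine Reduction.algHom_ext_jdElem (L := Qb) fun d hne hd => ?_
    have hfix : ∀ {N : ℕ} {e : ℕ} [NeZero e] (he : e ∣ N) (τ : Γℚ),
        coeffMap (τ : Qb →+* Qb) (Reduction.jdElem Qb he : LaurentSeries Qb) =
          (Reduction.jdElem Qb he : LaurentSeries Qb) :=
      fun he τ => coeffMap_coeffEmb τ _
    have e0 : act p M σ • Reduction.jdElem Qb hd = Reduction.jdElem Qb hd :=
      Subtype.ext (hfix hd σ)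
    show act p M σ⁻¹ • w (act p M σ • Reduction.jdElem Qb hd) = w (Reduction.jdElem Qb hd)
    rw [e0]
    have hp : p.Prime := Fact.out
    by_cases hpd : p ∣ d
    · obtain ⟨e, rfl⟩ := hpd
      have : NeZero e := ⟨fun h => hne.out (by simp [h])⟩
      have he : e ∣ M := by
        have := hd
        rw [mul_comm p e] at this
        exact Nat.dvd_of_mul_dvd_mul_right hp.pos this
      have hb : Reduction.jdElem Qb hd = heckeBetaBar Qb M p (Reduction.jdElem Qb he) := by
        refine Subtype.ext ?_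
        rw [coe_heckeBetaBar, Reduction.coe_jdElem, Reduction.coe_jdElem, coeffEmb,
          ← coeffMap_qExpand, qExpand_qExpand]
      rw [hb, h2]
      exact act_smul_alpha p M (hfix he _)
    · have hd' : d ∣ M := ((hp.coprime_iff_not_dvd.2 hpd).symm).dvd_of_dvd_mul_right hd
      have ha : Reduction.jdElem Qb hd = heckeAlphaBar Qb M p (Reduction.jdElem Qb hd') :=
        Subtype.ext rfl
      rw [ha, h1]
      exact act_smul_beta p M (hfix hd' _)
  have h' : act p M σ⁻¹ • w (act p M σ • f) = w f := AlgHom.congr_fun hφ f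
  rw [← h', map_inv, smul_inv_smul]

theorem act_mem_iff (hpM : ¬ p ∣ M) (i : Bool) {σ : Γℚ} (hσ : σ ∈ A.inertiaSubgroupIn ℚ) (f : F) :
    act p M σ • f ∈ V A p M i ↔ f ∈ V A p M i := by
  have key : ∀ {τ : Γℚ}, τ ∈ A.inertiaSubgroupIn ℚ → ∀ x : F, x ∈ V A p M i →
      act p M τ • x ∈ V A p M i := by
    intro τ hτ x hx
    rw [mem_V_iff, mem_gauss_iff] at hx ⊢
    obtain ⟨g, hg⟩ := hx
    refine ⟨g, ?_⟩
    have := hasGaussRed_coeffMap_inertia A hτ hg
    cases i
    · exact this
    · rw [toFirst_true, swap_act, coe_act_smul]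
      exact this
  refine ⟨fun h => ?_, key hσ f⟩
  have := key (inv_mem hσ) _ h
  rwa [map_inv, inv_smul_smul] at this

theorem red_algebraMap (i : Bool) (a : A) (ha : algebraMap Qb F a ∈ V A p M i) :
    red A p M hpM hA i ⟨algebraMap Qb F a, ha⟩ =
      algebraMap (ResidueField A) Fb (residue A a) := by
  refine red_eq_of_hasGaussRed A p M hpM hA i ha ?_
  rw [toFirst_algebraMap, coe_algebraMap_FL]
  convert hasGaussRed_C (π := residue A) a using 1
  rw [HahnSeries.C_apply, ← algebraMap_laurentSeries_eq_single]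
  rfl

theorem red_eq_zero_iff (i : Bool) (f : V A p M i) :
    red A p M hpM hA i f = 0 ↔ (f : F) ∈ (V A p M i).nonunits := by
  rw [mem_nonunits_V_iff]
  show _ ↔ _ ∈ (gaussRing (residue A) F _).nonunits
  rw [mem_nonunits_gaussRing]
  have h := hasGaussRed_red A p M hpM hA i f
  refine ⟨fun h0 => ?_, fun h0 => Subtype.ext (h.unique h0)⟩
  rwa [h0, ZeroMemClass.coe_zero] at h

theorem red_act (i : Bool) {σ : Γℚ} (hσ : σ ∈ A.inertiaSubgroupIn ℚ) (f : V A p M i)
    (h : act p M σ • (f : F) ∈ V A p M i) :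
    red A p M hpM hA i ⟨act p M σ • (f : F), h⟩ = red A p M hpM hA i f := by
  refine red_eq_of_hasGaussRed A p M hpM hA i h ?_
  have := hasGaussRed_coeffMap_inertia A hσ (hasGaussRed_red A p M hpM hA i f)
  cases i
  · exact this
  · rw [toFirst_true, swap_act, coe_act_smul]
    exact this

theorem swap_mem_iff (f : F) : swap p M f ∈ V A p M false ↔ f ∈ V A p M true :=
  (mem_V_iff A p M true f).symm

theorem red_swap (f : V A p M true) (h : swap p M (f : F) ∈ V A p M false) :
    red A p M hpM hA false ⟨swap p M (f : F), h⟩ = red A p M hpM hA true f :=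
  red_eq_of_hasGaussRed A p M hpM hA false h (hasGaussRed_red A p M hpM hA true f)

theorem exists_lift (a : Bool → Fb) :
    ∃ f : F, (∀ σ ∈ A.inertiaSubgroupIn ℚ, act p M σ • f = f) ∧
      ∀ i, ∃ h : f ∈ V A p M i, red A p M hpM hA i ⟨f, h⟩ = a i := by
  have := EC.charP_residueField A (Fact.out : p.Prime) hA
  set Δ := pairDelta (ResidueField A) p
  have hΔ0 : Δ ≠ 0 := pairDelta_ne_zero
  have hΔ : Δ ∈ modularFunctionFieldFullC (ResidueField A) M :=
    sub_mem (jqModC_mem_full _ M) (pow_mem (jqModC_mem_full _ M) _)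
  obtain ⟨u, hufix, hu⟩ := exists_fixed_hasGaussRed A (M := M) hA (div_mem (a false).2 hΔ)
  obtain ⟨v, hvfix, hv⟩ := exists_fixed_hasGaussRed A (M := M) hA (div_mem (a true).2 hΔ)
  obtain ⟨s1, s2, s3⟩ := swap_spec p M hpM
  have hw : IsALInvolution ((swap p M : F ≃ₐ[Qb] F) : F →ₐ[Qb] F) := ⟨s1, s2, s3⟩
  set e : F := pairBasis Qb p M none with he
  have he1 : HasGaussRed (residue A) (e : LaurentSeries Qb) Δ :=
    hasGaussRed_pairBasis (residue A) none
  have he2 : HasGaussRed (residue A) ((swap p M e : F) : LaurentSeries Qb) 0 :=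
    hasGaussRed_w_pairBasis (residue A) hw none
  have hefix : ∀ σ : Γℚ, act p M σ • e = e := fun σ => by
    have hj : coeffMap (σ : Qb →+* Qb) (jL M Qb : LaurentSeries Qb) =
        (jL M Qb : LaurentSeries Qb) := coeffMap_coeffEmb σ _
    rw [he, pairBasis, smul_sub, smul_pow', act_smul_alpha p M hj, act_smul_beta p M hj]
  set f : F := e * heckeAlphaBar Qb M p u + swap p M (e * heckeAlphaBar Qb M p v) with hf
  have hfix : ∀ σ ∈ A.inertiaSubgroupIn ℚ, act p M σ • f = f := fun σ hσ => by
    rw [hf, smul_add, smul_mul', hefix, act_smul_alpha p M (hufix σ hσ), ← swap_act, smul_mul',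
      hefix, act_smul_alpha p M (hvfix σ hσ)]
  have h1 : HasGaussRed (residue A) (f : LaurentSeries Qb)
      (a false : LaurentSeries (ResidueField A)) := by
    rw [hf, map_mul, s1, IntermediateField.coe_add, IntermediateField.coe_mul,
      IntermediateField.coe_mul]
    have := (he1.mul (hasGaussRed_alpha (residue A) (q := p) hu)).add
      (he2.mul (hasGaussRed_beta (residue A) (q := p) hv))
    rwa [zero_mul, add_zero, mul_div_cancel₀ _ hΔ0] at this
  have h2 : HasGaussRed (residue A) ((swap p M f : F) : LaurentSeries Qb)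
      (a true : LaurentSeries (ResidueField A)) := by
    rw [hf, map_add, s3, map_mul, s1, IntermediateField.coe_add, IntermediateField.coe_mul,
      IntermediateField.coe_mul]
    have := (he2.mul (hasGaussRed_beta (residue A) (q := p) hu)).add
      (he1.mul (hasGaussRed_alpha (residue A) (q := p) hv))
    rwa [zero_mul, zero_add, mul_div_cancel₀ _ hΔ0] at this
  have hboth : ∀ i, HasGaussRed (residue A) ((toFirst p M i f : F) : LaurentSeries Qb)
      (a i : LaurentSeries (ResidueField A)) := fun i => by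
    cases i
    · exact h1
    · exact h2
  exact ⟨f, hfix, fun i => ⟨(mem_V_iff A p M i f).2 ⟨_, hboth i⟩,
    red_eq_of_hasGaussRed A p M hpM hA i _ (hboth i)⟩⟩

theorem exists_scale (hpM : ¬ p ∣ M) (i : Bool) {H : Subgroup Γℚ}
    (hH : H ≤ A.inertiaSubgroupIn ℚ) {f : F} (hf : f ≠ 0)
    (hfix : ∀ σ ∈ H, act p M σ • f = f) :
    ∃ c : Qb, c ≠ 0 ∧ (∀ σ ∈ H, σ c = c) ∧
      (V A p M i).valuation (algebraMap Qb F c * f) = 1 := by
  have hfix' : ∀ σ ∈ H, coeffMap (σ : Qb →+* Qb) ((toFirst p M i f : F) : LaurentSeries Qb) =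
      ((toFirst p M i f : F) : LaurentSeries Qb) := by
    intro σ hσ
    rw [← coe_act_smul]
    cases i
    · rw [toFirst_false, hfix σ hσ]
    · rw [toFirst_true, ← swap_act, hfix σ hσ]
  obtain ⟨c, hc, hcfix, g, hg0, hg⟩ :=
    exists_scale_hasGaussRed A ((map_ne_zero (toFirst p M i)).2 hf) hfix'
  refine ⟨c, hc, hcfix, ?_⟩
  have hx : algebraMap Qb F c * f ≠ 0 := mul_ne_zero ((map_ne_zero _).2 hc) hf
  have hred : HasGaussRed (residue A)
      ((toFirst p M i (algebraMap Qb F c * f) : F) : LaurentSeries Qb) g := by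
    rw [map_mul, toFirst_algebraMap, IntermediateField.coe_mul, coe_algebraMap_FL]
    exact hg
  refine valuation_eq_one_of_inv_mem _ hx ((mem_V_iff A p M i _).2 ⟨g, hred⟩)
    ((mem_V_iff A p M i _).2 ⟨g⁻¹, ?_⟩)
  rw [map_inv₀, IntermediateField.coe_inv]
  exact hred.inv hg0

theorem descend_principal {H : Subgroup Γℚ} (D : Divisor Qb F)
    (hD : ∀ σ ∈ H, act p M σ • D = D) (hp : D.IsPrincipal) :
    ∃ f : F, f ≠ 0 ∧ (∀ σ ∈ H, act p M σ • f = f) ∧ ∀ P, D P = P.ord f := by
  obtain ⟨h, hh, hdiv⟩ := hp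
  set c := (h : LaurentSeries Qb).leadingCoeff
  have hc : c ≠ 0 := HahnSeries.leadingCoeff_ne_zero.mpr fun e => hh (Subtype.ext e)
  set h' : F := algebraMap Qb F c⁻¹ * h
  have hh' : h' ≠ 0 := mul_ne_zero ((map_ne_zero _).2 (inv_ne_zero hc)) hh
  have hdiv' : ∀ v, D v = v.ord h' := fun v => by
    rw [hdiv v, EichlerShimura.place_ord_smul_const v (inv_ne_zero hc) hh]
  have hlead : (h' : LaurentSeries Qb).leadingCoeff = 1 := by
    show (algebraMap Qb (LaurentSeries Qb) c⁻¹ * (h : LaurentSeries Qb)).leadingCoeff = 1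
    rw [HahnSeries.leadingCoeff_mul, algebraMap_laurentSeries_eq_single,
      HahnSeries.leadingCoeff_of_single]
    exact inv_mul_cancel₀ hc
  refine ⟨h', hh', fun σ hσ => ?_, hdiv'⟩
  have hne : act p M σ • h' ≠ 0 := by
    rw [SemilinearAut.smul_def]
    exact (map_ne_zero _).2 hh'
  refine EichlerShimura.eq_of_leadingCoeff_eq hne hh' (fun v => ?_) ?_
  · have h1 := SemilinearAut.ord_smul (act p M σ) ((act p M σ)⁻¹ • v) h'
    rw [smul_inv_smul] at h1
    rw [h1, ← hdiv', ← hdiv', ← SemilinearAut.divisor_smul_apply, hD σ hσ]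
  · rw [coe_act_smul, EichlerShimura.leadingCoeff_coeffMap _ (fun e => hh' (Subtype.ext e)),
      hlead, map_one]

theorem descend_class {H : Subgroup Γℚ} (D : Divisor Qb F) (hdeg : Divisor.degree D = 0)
    (hD : ∀ σ ∈ H, Divisor.IsPrincipal (act p M σ • D - D)) :
    ∃ D' : Divisor Qb F, (∀ σ ∈ H, act p M σ • D' = D') ∧ Divisor.IsPrincipal (D' - D) := by
  set P := EichlerShimura.cuspPlace Qb (modularFunctionFieldFull (M * p))
  set g := genusFF Qb F
  set D₁ := D + Finsupp.single P (g : ℤ) with hD₁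
  have hP1 : (P.deg : ℤ) = 1 := by
    exact_mod_cast (EichlerShimura.deg_cuspPlace (L := Qb)
      (modularFunctionFieldFull (M * p))).1
  have hdeg' : Divisor.degree D₁ = g := by
    rw [hD₁, map_add, hdeg, Divisor.degree_single, hP1, zero_add, mul_one]
  have hell : (1 : ℤ) ≤ ell D₁ := by
    have := riemann_inequality D₁
    rw [hdeg'] at this
    omega
  obtain ⟨f₀, hf₀, hne⟩ : ∃ f ∈ riemannRochSpace D₁, f ≠ 0 := by
    refine Submodule.exists_mem_ne_zero_of_ne_bot fun h => ?_
    rw [ell, h, finrank_bot] at hell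
    omega
  have hPfix : ∀ σ : Γℚ, act p M σ • P = P := EichlerShimura.smul_cuspPlace _
  obtain ⟨m, E, -, hfix, hprinc⟩ := EichlerShimura.exists_invariant_effective
    (EichlerShimura.deg_cuspPlace (L := Qb) (modularFunctionFieldFull (M * p))).2
    (f₀ := f₀) (D := D₁) ⟨hne, fun v => by
      have := (mem_riemannRochSpace_iff.mp hf₀ v).resolve_left hne
      omega⟩ ((act p M) '' (H : Set Γℚ))
    (by rintro _ ⟨σ, -, rfl⟩; exact hPfix σ)
    (by
      rintro _ ⟨σ, hσ, rfl⟩
      rw [hD₁, smul_add, SemilinearAut.smul_single, hPfix, add_sub_add_right_eq_sub]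
      exact hD σ hσ)
  refine ⟨E - Finsupp.single P ((g : ℤ) - m), fun σ hσ => ?_, ?_⟩
  · rw [smul_sub, hfix _ ⟨σ, hσ, rfl⟩, SemilinearAut.smul_single, hPfix]
  · have e : E - Finsupp.single P ((g : ℤ) - m) - D = E - (D₁ - Finsupp.single P (m : ℤ)) := by
      rw [hD₁, Finsupp.single_sub]
      abel
    rw [e]
    exact hprinc

end Fermat.Agent.LevelP.X0
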